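import Mathlib
import Fermat.Agent.GR.H.Iface

/-!
# LP-GAL : shared definitions

Goal of the module: `E[p]` embeds `G_ℚ`-equivariantly into every nonzero Galois stable subspace of
the eigenspace `M_p(N)[λ_E]` of the group `M_p(N)` of classes of Kummer functions of `X₀(N)`.
-/

set_option autoImplicit false

namespace Fermat.Agent.LP.Gal

open Fermat.Agent.GR.H (GQ FrobeniusDensity)

section abstract
variable {k G V X : Type*} [Field k] [Group G] [AddCommGroup V] [Module k V]
  [AddCommGroup X] [Module k X]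

/-- every `r g` is killed by the characteristic polynomial of `ρ g`. -/
def CHRel (ρ : G →* Module.End k V) (r : G →* Module.End k X) : Prop :=
  ∀ g : G, r g * r g - LinearMap.trace k V (ρ g) • r g + LinearMap.det (ρ g) • 1 = 0

/-- no proper nonzero stable subspace. -/
def Irr (ρ : G →* Module.End k V) : Prop :=
  ∀ U : Submodule k V, (∀ g : G, ∀ x ∈ U, ρ g x ∈ U) → U = ⊥ ∨ U = ⊤

/-- `φ` intertwines `ρ` and `r`. -/
def Equivariant (ρ : G →* Module.End k V) (r : G →* Module.End k X) (φ : V →ₗ[k] X) : Prop :=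
  ∀ g v, φ (ρ g v) = r g (φ v)

end abstract

variable {p : ℕ}

/-- `r` factors through a finite quotient of `G_ℚ`. -/
def HasLevel {M : Type*} [AddCommGroup M] [Module (ZMod p) M]
    (r : GQ →* Module.End (ZMod p) M) : Prop :=
  ∃ L : IntermediateField ℚ (AlgebraicClosure ℚ), FiniteDimensional ℚ L ∧
    ∀ σ : GQ, (∀ x ∈ L, σ x = x) → r σ = 1

/-- the quadratic relations at the Frobenius elements outside `S`. -/
def FrobRel {M : Type*} [AddCommGroup M] [Module (ZMod p) M] (S : Finset ℕ) (a : ℕ → ZMod p)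
    (r : GQ →* Module.End (ZMod p) M) : Prop :=
  ∀ ℓ : ℕ, ℓ.Prime → ℓ ∉ S → ∀ A : ValuationSubring (AlgebraicClosure ℚ), A.LiesOverPrime ℓ →
    ∀ τ : GQ, A.IsFrobeniusAt τ ℓ → r τ * r τ - a ℓ • r τ + (ℓ : ZMod p) • 1 = 0

/-- restriction of a representation to a stable subspace. -/
noncomputable def resRep {M : Type*} [AddCommGroup M] [Module (ZMod p) M]
    (r : GQ →* Module.End (ZMod p) M) (U : Submodule (ZMod p) M)
    (hU : ∀ g, ∀ x ∈ U, r g x ∈ U) : GQ →* Module.End (ZMod p) U where
  toFun g := (r g).restrict (hU g)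
  map_one' := by
    refine LinearMap.ext fun x => Subtype.ext ?_
    simp [LinearMap.restrict_apply]
  map_mul' g h := by
    refine LinearMap.ext fun x => Subtype.ext ?_
    simp [LinearMap.restrict_apply]

@[simp] theorem coe_resRep {M : Type*} [AddCommGroup M] [Module (ZMod p) M]
    (r : GQ →* Module.End (ZMod p) M) (U : Submodule (ZMod p) M)
    (hU : ∀ g, ∀ x ∈ U, r g x ∈ U) (g : GQ) (x : U) : ((resRep r U hU g x : U) : M) = r g x := rfl

end Fermat.Agent.LP.Gal
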