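import Fermat.Prelude.Def_FLTPrelim_ModularRep
import Fermat.Prelude.Def_EllipticCurve_FrobeniusTrace
import Fermat.Agent.LP.Gal.Defs

/-!
# LP-GAL : the representation `E[p]`; the exports `X1`, `X3`, `X4` of module EL as `Prop`s
-/

set_option autoImplicit false

open WeierstrassCurve WeierstrassCurve.Affine WeierstrassCurve.Affine.Point

namespace Fermat.Agent.LP.Gal

open Fermat.Agent.GR.H (GQ FrobeniusDensity)

/-- `E[n]` over `ℚ̄`. -/
abbrev Tor (E : WeierstrassCurve ℚ) (n : ℕ) : Type :=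
  Submodule.torsionBy ℤ (E⁄(AlgebraicClosure ℚ)).Point n

/-- the Galois representation on `E[n]`. -/
noncomputable abbrev rhoE (E : WeierstrassCurve ℚ) (n : ℕ) :
    GQ →* Module.End (ZMod n) (Tor E n) :=
  galoisRepModuleEnd (K := AlgebraicClosure ℚ) ℚ E n

/-- `W_ℚ`. -/
abbrev toQ (W : WeierstrassCurve ℤ) : WeierstrassCurve ℚ := W.map (Int.castRingHom ℚ)

/-- EXPORT (X1) of module EL. -/
def X1 : Prop :=
  ∀ W : WeierstrassCurve ℤ, W.Δ ≠ 0 → ∀ n : ℕ, 0 < n → Nat.card (Tor (toQ W) n) = n ^ 2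

/-- EXPORT (X3) of module EL. -/
def X3 : Prop :=
  ∀ W : WeierstrassCurve ℤ, W.Δ ≠ 0 → ∀ n ℓ : ℕ, ℓ.Prime → 5 ≤ ℓ → ¬ (ℓ : ℤ) ∣ W.Δ → ¬ ℓ ∣ n →
    ∀ A : ValuationSubring (AlgebraicClosure ℚ), A.LiesOverPrime ℓ →
      ∀ σ : GQ, A.IsFrobeniusAt σ ℓ → ∀ x : Tor (toQ W) n,
        σ • σ • x - (W.apOfModel ℓ) • σ • x + (ℓ : ℤ) • x = 0

/-- EXPORT (X4): a change of variables over `ℚ` induces a Galois equivariant isomorphism of the
groups of `ℚ̄`-points. -/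
def X4 : Prop :=
  ∀ (E E' : WeierstrassCurve ℚ) (C : VariableChange ℚ), C • E = E' →
    ∃ e : (E⁄(AlgebraicClosure ℚ)).Point ≃+ (E'⁄(AlgebraicClosure ℚ)).Point,
      ∀ (σ : GQ) (P : (E⁄(AlgebraicClosure ℚ)).Point), e (σ • P) = σ • e P

/-- the finite set of primes excluded for `W` and `p`. -/
noncomputable def badSet (W : WeierstrassCurve ℤ) (p : ℕ) : Finset ℕ :=
  insert 2 (insert 3 (insert p W.Δ.natAbs.primeFactors))

theorem mem_badSet_self (W : WeierstrassCurve ℤ) (p : ℕ) : p ∈ badSet W p := by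
  simp [badSet]

end Fermat.Agent.LP.Gal
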