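import Fermat.Agent.GR.C.Conj
import Fermat.Agent.GR.H.Iface

/-!
# LP-GAL : a complex conjugation in `G_ℚ`
-/

set_option autoImplicit false

namespace Fermat.Agent.LP.Gal

open Fermat.Agent.GR.H (GQ)

/-- PROOF. `ι : ℚ̄ →+* ℂ` (`IsAlgClosed.lift`), `c` from `GR.C.exists_conj ι`; `ι` injective;
`conj (conj z) = z`; `‖ι ζ‖ = 1` so `conj (ι ζ) = (ι ζ)⁻¹`. -/
theorem exists_complexConj : ∃ c : GQ, c * c = 1 ∧
    ∀ (m : ℕ) (ζ : AlgebraicClosure ℚ), 0 < m → ζ ^ m = 1 → c ζ = ζ⁻¹ := by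
  have halg : Algebra.IsAlgebraic ℚ (AlgebraicClosure ℚ) := AlgebraicClosure.isAlgebraic ℚ
  let ι : AlgebraicClosure ℚ →+* ℂ :=
    (IsAlgClosed.lift : AlgebraicClosure ℚ →ₐ[ℚ] ℂ).toRingHom
  obtain ⟨c, hc⟩ := Fermat.Agent.GR.C.exists_conj ι
  refine ⟨c, ?_, ?_⟩
  · apply AlgEquiv.ext
    intro x
    apply ι.injective
    rw [AlgEquiv.mul_apply, hc, hc, AlgEquiv.one_apply]
    exact Complex.conj_conj _
  · intro m ζ hm hζ
    apply ι.injective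
    have h1 : (ι ζ) ^ m = 1 := by rw [← map_pow, hζ, map_one]
    have h2 : ‖ι ζ‖ = 1 := Complex.norm_eq_one_of_pow_eq_one h1 hm.ne'
    rw [hc, map_inv₀, Complex.inv_eq_conj h2]

end Fermat.Agent.LP.Gal
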