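import Fermat.Agent.LP.Gal.Burnside

/-!
# LP-GAL : equivariant embeddings `V → X`
-/

set_option autoImplicit false

namespace Fermat.Agent.LP.Gal

variable {k G V X : Type*} [Field k] [Group G] [AddCommGroup V] [Module k V] [Module.Finite k V]
  [AddCommGroup X] [Module k X]

omit [Module.Finite k V] in
/-- the kernel is a stable subspace. -/
theorem injective_of_equivariant (ρ : G →* Module.End k V) (r : G →* Module.End k X)
    (hirr : Irr ρ) (φ : V →ₗ[k] X) (hφ : Equivariant ρ r φ) (h0 : φ ≠ 0) :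
    Function.Injective φ := by
  rcases hirr (LinearMap.ker φ) (fun g x hx => by
    rw [LinearMap.mem_ker] at hx ⊢
    rw [hφ g x, hx, map_zero]) with h | h
  · exact LinearMap.ker_eq_bot.1 h
  · exact absurd (LinearMap.ker_eq_top.1 h) h0

omit [Module.Finite k V] in
/-- `v ↦ Ψ (f ⊗ v) x`. -/
noncomputable def Embed_phi (Ψ : Module.End k V →ₐ[k] Module.End k X) (f : V →ₗ[k] k) (x : X) :
    V →ₗ[k] X where
  toFun v := Ψ (f.smulRight v) x
  map_add' v w := by
    have h : f.smulRight (v + w) = f.smulRight v + f.smulRight w := by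
      ext u
      simp
    rw [h, map_add, LinearMap.add_apply]
  map_smul' c v := by
    have h : f.smulRight (c • v) = c • f.smulRight v := by
      ext u
      rw [LinearMap.smul_apply, LinearMap.smulRight_apply, LinearMap.smulRight_apply, smul_comm]
    rw [h, map_smul, LinearMap.smul_apply, RingHom.id_apply]

omit [Module.Finite k V] in
theorem Embed_phi_apply (Ψ : Module.End k V →ₐ[k] Module.End k X) (f : V →ₗ[k] k) (x : X) (v : V) :
    Embed_phi Ψ f x v = Ψ (f.smulRight v) x := rfl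

omit [Module.Finite k V] in
theorem Embed_phi_equivariant (ρ : G →* Module.End k V) (r : G →* Module.End k X)
    (Ψ : Module.End k V →ₐ[k] Module.End k X) (hΨ : ∀ g, Ψ (ρ g) = r g) (f : V →ₗ[k] k) (x : X) :
    Equivariant ρ r (Embed_phi Ψ f x) := by
  intro g v
  rw [Embed_phi_apply, Embed_phi_apply]
  have h : f.smulRight (ρ g v) = ρ g * f.smulRight v := by
    ext u
    simp
  rw [h, map_mul, hΨ, Module.End.mul_apply]

/-- PROOF. `Ψ` from `exists_algHom`.  Basis `e₁, e₂` of `V`; for `v : V` let `A v : End V` be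
`e₁ ↦ v, e₂ ↦ 0` (linear in `v`; `B ∘ A v = A (B v)`).  For `x : X` put
`φ_x v := Ψ (A v) x`: it is linear and equivariant.  `x = Ψ(1) x = Ψ(A e₁) x + Ψ(A' e₂) x` where
`A' v : e₂ ↦ v, e₁ ↦ 0`, `A' v = A v ∘ s` (`s` the swap), so
`x = φ_x e₁ + φ_{Ψ(s) x} e₂`. -/
theorem mem_span_images (h2 : (2 : k) ≠ 0) (hV : Module.finrank k V = 2)
    (ρ : G →* Module.End k V) (r : G →* Module.End k X) (hCH : CHRel ρ r)
    (hcomm : ∃ g h : G, LinearMap.det (ρ g * ρ h - ρ h * ρ g) ≠ 0) (x : X) :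
    ∃ (φ₁ φ₂ : V →ₗ[k] X) (v₁ v₂ : V), Equivariant ρ r φ₁ ∧ Equivariant ρ r φ₂ ∧
      x = φ₁ v₁ + φ₂ v₂ := by
  obtain ⟨Ψ, hΨ⟩ := exists_algHom h2 hV ρ r hCH hcomm
  let b : Module.Basis (Fin 2) k V := Module.finBasisOfFinrankEq k V hV
  refine ⟨Embed_phi Ψ (b.coord 0) x, Embed_phi Ψ (b.coord 1) x, b 0, b 1,
    Embed_phi_equivariant ρ r Ψ hΨ _ x, Embed_phi_equivariant ρ r Ψ hΨ _ x, ?_⟩
  have h1 : (1 : Module.End k V) = (b.coord 0).smulRight (b 0) + (b.coord 1).smulRight (b 1) := by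
    ext v
    have := b.sum_repr v
    rw [Fin.sum_univ_two] at this
    simp only [Module.End.one_apply, LinearMap.add_apply, LinearMap.smulRight_apply,
      Module.Basis.coord_apply]
    exact this.symm
  rw [Embed_phi_apply, Embed_phi_apply, ← LinearMap.add_apply, ← map_add, ← h1, map_one,
    Module.End.one_apply]

/-- from `mem_span_images` (some `φᵢ ≠ 0`) and `injective_of_equivariant`. -/
theorem exists_embedding (h2 : (2 : k) ≠ 0) (hV : Module.finrank k V = 2)
    (ρ : G →* Module.End k V) (r : G →* Module.End k X) (hCH : CHRel ρ r)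
    (hcomm : ∃ g h : G, LinearMap.det (ρ g * ρ h - ρ h * ρ g) ≠ 0) (hirr : Irr ρ)
    [Nontrivial X] :
    ∃ φ : V →ₗ[k] X, Function.Injective φ ∧ Equivariant ρ r φ := by
  obtain ⟨x, hx⟩ := exists_ne (0 : X)
  obtain ⟨φ₁, φ₂, v₁, v₂, h₁, h₂, hxe⟩ := mem_span_images h2 hV ρ r hCH hcomm x
  by_cases h0 : φ₁ = 0
  · have h0' : φ₂ ≠ 0 := by
      rintro rfl
      apply hx
      rw [hxe, h0]
      simp
    exact ⟨φ₂, injective_of_equivariant ρ r hirr φ₂ h₂ h0', h₂⟩
  · exact ⟨φ₁, injective_of_equivariant ρ r hirr φ₁ h₁ h0, h₁⟩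

/-- PROOF. take `φ` from `exists_embedding`; `φ + w ∘ φ` and `φ - w ∘ φ` are equivariant, their sum
is `2 φ ≠ 0`; a nonzero one is an eigenvector of `w ∘ -` and is injective. -/
theorem exists_embedding_involution (h2 : (2 : k) ≠ 0) (hV : Module.finrank k V = 2)
    (ρ : G →* Module.End k V) (r : G →* Module.End k X) (hCH : CHRel ρ r)
    (hcomm : ∃ g h : G, LinearMap.det (ρ g * ρ h - ρ h * ρ g) ≠ 0) (hirr : Irr ρ)
    [Nontrivial X] (w : Module.End k X) (hw : w * w = 1) (hwr : ∀ g, w * r g = r g * w) :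
    ∃ (φ : V →ₗ[k] X) (s : k), (s = 1 ∨ s = -1) ∧ Function.Injective φ ∧ Equivariant ρ r φ ∧
      ∀ v, w (φ v) = s • φ v := by
  obtain ⟨φ, hinj, heq⟩ := exists_embedding h2 hV ρ r hCH hcomm hirr
  have hww : ∀ y : X, w (w y) = y := fun y => by
    rw [← Module.End.mul_apply, hw, Module.End.one_apply]
  have hwr' : ∀ g (y : X), w (r g y) = r g (w y) := fun g y => by
    rw [← Module.End.mul_apply, hwr, Module.End.mul_apply]
  have hφ0 : φ ≠ 0 := by
    rintro rfl
    have hsub : Subsingleton V := ⟨fun a b => hinj (by simp)⟩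
    rw [Module.finrank_zero_of_subsingleton] at hV
    omega
  have hweq : Equivariant ρ r (w ∘ₗ φ) := by
    intro g v
    rw [LinearMap.comp_apply, LinearMap.comp_apply, heq g v, hwr']
  by_cases hp : φ + w ∘ₗ φ = 0
  · have hm : φ - w ∘ₗ φ ≠ 0 := by
      intro hm
      apply hφ0
      have h3 : (2 : k) • φ = 0 := by
        rw [two_smul]
        calc φ + φ = (φ + w ∘ₗ φ) + (φ - w ∘ₗ φ) := by abel
          _ = 0 := by rw [hp, hm, add_zero]
      exact (smul_eq_zero.1 h3).resolve_left h2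
    have he : Equivariant ρ r (φ - w ∘ₗ φ) := by
      intro g v
      rw [LinearMap.sub_apply, LinearMap.sub_apply, heq g v, hweq g v, map_sub]
    refine ⟨φ - w ∘ₗ φ, -1, Or.inr rfl, injective_of_equivariant ρ r hirr _ he hm, he, fun v => ?_⟩
    rw [LinearMap.sub_apply, LinearMap.comp_apply, map_sub, hww, neg_smul, one_smul, neg_sub]
  · have he : Equivariant ρ r (φ + w ∘ₗ φ) := by
      intro g v
      rw [LinearMap.add_apply, LinearMap.add_apply, heq g v, hweq g v, map_add]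
    refine ⟨φ + w ∘ₗ φ, 1, Or.inl rfl, injective_of_equivariant ρ r hirr _ he hp, he, fun v => ?_⟩
    rw [LinearMap.add_apply, LinearMap.comp_apply, map_add, hww, one_smul, add_comm]

end Fermat.Agent.LP.Gal
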