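import Fermat.Agent.LP.Gal.Defs

/-!
# LP-GAL : irreducible + odd ⟹ some commutator is invertible
-/

set_option autoImplicit false

namespace Fermat.Agent.LP.Gal

variable {k G V : Type*} [Field k] [Group G] [AddCommGroup V] [Module k V] [Module.Finite k V]

omit [Module.Finite k V] in
theorem Odd_mem_ker_sub {C : Module.End k V} {v : V} : v ∈ LinearMap.ker (C - 1) ↔ C v = v := by
  rw [LinearMap.mem_ker, LinearMap.sub_apply, Module.End.one_apply, sub_eq_zero]

omit [Module.Finite k V] in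
theorem Odd_mem_ker_add {C : Module.End k V} {v : V} : v ∈ LinearMap.ker (C + 1) ↔ C v = -v := by
  rw [LinearMap.mem_ker, LinearMap.add_apply, Module.End.one_apply, add_eq_zero_iff_eq_neg]

omit [Module.Finite k V] in
theorem Odd_apply_apply {C : Module.End k V} (hC : C * C = 1) (v : V) : C (C v) = v := by
  have := congrArg (fun f : Module.End k V => f v) hC
  simpa using this

omit [Module.Finite k V] in
theorem Odd_isCompl (h2 : (2 : k) ≠ 0) (C : Module.End k V) (hC : C * C = 1) :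
    IsCompl (LinearMap.ker (C - 1)) (LinearMap.ker (C + 1)) := by
  have hCC := Odd_apply_apply hC
  constructor
  · rw [Submodule.disjoint_def]
    intro v h1 h2'
    rw [Odd_mem_ker_sub] at h1
    rw [Odd_mem_ker_add] at h2'
    have h3 : (2 : k) • v = 0 := by
      rw [two_smul]
      nth_rewrite 1 [← h1]
      rw [h2', neg_add_cancel]
    exact (smul_eq_zero.1 h3).resolve_left h2
  · rw [codisjoint_iff, eq_top_iff]
    intro v _
    rw [Submodule.mem_sup]
    refine ⟨(2 : k)⁻¹ • (v + C v), ?_, (2 : k)⁻¹ • (v - C v), ?_, ?_⟩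
    · rw [Odd_mem_ker_sub, map_smul, map_add, hCC, add_comm]
    · rw [Odd_mem_ker_add, map_smul, map_sub, hCC, ← smul_neg, neg_sub]
    · rw [← smul_add, add_add_sub_cancel, ← two_smul k v, smul_smul, inv_mul_cancel₀ h2, one_smul]

theorem Odd_finrank (h2 : (2 : k) ≠ 0) (hV : Module.finrank k V = 2) (C : Module.End k V)
    (hC : C * C = 1) (hdet : LinearMap.det C = -1) :
    Module.finrank k (LinearMap.ker (C - 1)) = 1 ∧ Module.finrank k (LinearMap.ker (C + 1)) = 1 := by
  have hCC := Odd_apply_apply hC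
  have hsum := Submodule.finrank_add_eq_of_isCompl (Odd_isCompl h2 C hC)
  have hne : (1 : k) ≠ -1 := by
    intro h
    apply h2
    linear_combination h
  have h1 : Module.finrank k (LinearMap.ker (C - 1)) ≠ 0 := by
    intro h0
    rw [Submodule.finrank_eq_zero] at h0
    have hCm : C = (-1 : k) • (1 : Module.End k V) := by
      ext v
      have : C v + v ∈ LinearMap.ker (C - 1) := by
        rw [Odd_mem_ker_sub, map_add, hCC, add_comm]
      rw [h0, Submodule.mem_bot, add_eq_zero_iff_eq_neg] at this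
      rw [this]
      simp
    rw [hCm, LinearMap.det_smul, hV, map_one] at hdet
    apply hne
    rw [← hdet]
    ring
  have h1' : Module.finrank k (LinearMap.ker (C + 1)) ≠ 0 := by
    intro h0
    rw [Submodule.finrank_eq_zero] at h0
    have hCm : C = 1 := by
      ext v
      have : C v - v ∈ LinearMap.ker (C + 1) := by
        rw [Odd_mem_ker_add, map_sub, hCC, neg_sub]
      rw [h0, Submodule.mem_bot, sub_eq_zero] at this
      rw [this]
      simp
    rw [hCm, map_one] at hdet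
    exact hne hdet
  omega

omit [Module.Finite k V] in
theorem Odd_line (U : Submodule k V) (hU : Module.finrank k U = 1) (A : Module.End k V) {w : V}
    (hw : w ∈ U) (hw0 : w ≠ 0) (hAw : A w ∈ U) : ∀ x ∈ U, A x ∈ U := by
  intro x hx
  obtain ⟨a, ha⟩ := (finrank_eq_one_iff_of_nonzero' (⟨w, hw⟩ : U)
    (by simpa [Subtype.ext_iff] using hw0)).1 hU ⟨x, hx⟩
  have h1 : a • w = x := congrArg Subtype.val ha
  rw [← h1, map_smul]
  exact U.smul_mem a hAw

theorem Odd_stable_of_det_eq_zero (C A : Module.End k V) (hC : C * C = 1)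
    (hp : Module.finrank k (LinearMap.ker (C - 1)) = 1)
    (hm : Module.finrank k (LinearMap.ker (C + 1)) = 1)
    (hdet : LinearMap.det (C * A - A * C) = 0) :
    (∀ x ∈ LinearMap.ker (C - 1), A x ∈ LinearMap.ker (C - 1)) ∨
      (∀ x ∈ LinearMap.ker (C + 1), A x ∈ LinearMap.ker (C + 1)) := by
  have hCC := Odd_apply_apply hC
  obtain ⟨v, hv, hv0⟩ := Submodule.exists_mem_ne_zero_of_ne_bot
    (LinearMap.bot_lt_ker_of_det_eq_zero hdet).ne'
  have hT : C (A v) = A (C v) := by
    rw [LinearMap.mem_ker, LinearMap.sub_apply, Module.End.mul_apply, Module.End.mul_apply,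
      sub_eq_zero] at hv
    exact hv
  by_cases hvp : v + C v = 0
  · right
    have hCv : C v = -v := by
      rw [add_comm, add_eq_zero_iff_eq_neg] at hvp
      exact hvp
    refine Odd_line _ hm A (w := v) (Odd_mem_ker_add.2 hCv) hv0 ?_
    rw [Odd_mem_ker_add, hT, hCv, map_neg]
  · left
    refine Odd_line _ hp A (w := v + C v) ?_ hvp ?_
    · rw [Odd_mem_ker_sub, map_add, hCC, add_comm]
    · have h3 : C (A (C v)) = A v := by rw [← hT, hCC]
      rw [Odd_mem_ker_sub, map_add, map_add, hT, h3, add_comm]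

theorem Odd_inv_stable (ρ : G →* Module.End k V) (U : Submodule k V) (g : G)
    (hg : ∀ x ∈ U, ρ g x ∈ U) : ∀ x ∈ U, ρ g⁻¹ x ∈ U := by
  have hinv : ∀ x, ρ g⁻¹ (ρ g x) = x := by
    intro x
    rw [← Module.End.mul_apply, ← map_mul, inv_mul_cancel, map_one, Module.End.one_apply]
  have hinj : Function.Injective ((ρ g).restrict hg) := by
    intro x y hxy
    have h1 : ρ g x = ρ g y := congrArg Subtype.val hxy
    apply Subtype.ext
    rw [← hinv x, h1, hinv]
  have hsurj := LinearMap.injective_iff_surjective.1 hinj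
  intro x hx
  obtain ⟨y, hy⟩ := hsurj ⟨x, hx⟩
  have h1 : ρ g y = x := congrArg Subtype.val hy
  rw [← h1, hinv]
  exact y.2

omit [Module.Finite k V] in
theorem Odd_mul_stable (ρ : G →* Module.End k V) (U : Submodule k V) (g g' : G)
    (hg : ∀ x ∈ U, ρ g x ∈ U) (hg' : ∀ x ∈ U, ρ g' x ∈ U) : ∀ x ∈ U, ρ (g * g') x ∈ U := by
  intro x hx
  rw [map_mul, Module.End.mul_apply]
  exact hg _ (hg' x hx)

omit [Module.Finite k V] in
theorem Odd_not_stable (hV : Module.finrank k V = 2) (ρ : G →* Module.End k V) (hirr : Irr ρ)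
    (U : Submodule k V) (hU : Module.finrank k U = 1) : ∃ g : G, ¬ ∀ x ∈ U, ρ g x ∈ U := by
  by_contra hcon
  push Not at hcon
  rcases hirr U hcon with h | h
  · rw [h, finrank_bot] at hU
    omega
  · rw [h, finrank_top, hV] at hU
    omega

/-- PROOF. `C := ρ c`, `C² = 1`, `det C = -1`, `2 ≠ 0`: `C ≠ ± 1`, so `V = V⁺ ⊕ V⁻` with two lines
`V^± = ker (C ∓ 1) = k e_±`.  In the basis `e₊, e₋` write `ρ g = (a b; c' d)`:
`det (C ρ g - ρ g C) = 4 b c'`.  `H₁ := {g | b(g) = 0}` (stabiliser of the line `k e₋`... ) and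
`H₂ := {g | c'(g) = 0}` are subgroups, both proper because `ρ` is irreducible, and a group is not
the union of two proper subgroups (take `g₁ ∉ H₁`, `g₂ ∉ H₂`; if `g₁ ∈ H₂` and `g₂ ∈ H₁` then
`g₁ g₂ ∉ H₁ ∪ H₂`). -/
theorem exists_det_commutator_ne_zero_of_odd (h2 : (2 : k) ≠ 0) (hV : Module.finrank k V = 2)
    (ρ : G →* Module.End k V) (hirr : Irr ρ) (c : G) (hc : ρ c * ρ c = 1)
    (hdet : LinearMap.det (ρ c) = -1) :
    ∃ g : G, LinearMap.det (ρ c * ρ g - ρ g * ρ c) ≠ 0 := by
  by_contra hcon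
  push Not at hcon
  obtain ⟨hp, hm⟩ := Odd_finrank h2 hV (ρ c) hc hdet
  have hall := fun g => Odd_stable_of_det_eq_zero (ρ c) (ρ g) hc hp hm (hcon g)
  obtain ⟨g₁, hg₁⟩ := Odd_not_stable hV ρ hirr _ hp
  obtain ⟨g₂, hg₂⟩ := Odd_not_stable hV ρ hirr _ hm
  have h1 := (hall g₁).resolve_left hg₁
  have h2' := (hall g₂).resolve_right hg₂
  rcases hall (g₁ * g₂) with h | h
  · apply hg₁
    have := Odd_mul_stable ρ _ (g₁ * g₂) g₂⁻¹ h (Odd_inv_stable ρ _ g₂ h2')
    rwa [mul_inv_cancel_right] at this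
  · apply hg₂
    have := Odd_mul_stable ρ _ g₁⁻¹ (g₁ * g₂) (Odd_inv_stable ρ _ g₁ h1) h
    rwa [inv_mul_cancel_left] at this

end Fermat.Agent.LP.Gal
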