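import Fermat.Agent.LP.Gal.DensityC
import Fermat.Agent.LP.Gal.Conj
import Fermat.Agent.LP.Gal.Odd
import Fermat.Agent.LP.Gal.Embed

/-!
# LP-GAL : the abstract main theorem
-/

set_option autoImplicit false

namespace Fermat.Agent.LP.Gal

open Fermat.Agent.GR.H (GQ FrobeniusDensity)

variable {p : ℕ} [Fact p.Prime]
variable {V X : Type*} [AddCommGroup V] [Module (ZMod p) V] [Module.Finite (ZMod p) V]
  [AddCommGroup X] [Module (ZMod p) X]

theorem Abstract_two_ne_zero (hp : p.Prime) (hp2 : p ≠ 2) : (2 : ZMod p) ≠ 0 := by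
  intro h
  have h1 : ((2 : ℕ) : ZMod p) = 0 := by exact_mod_cast h
  rw [ZMod.natCast_eq_zero_iff] at h1
  exact hp2 ((Nat.prime_dvd_prime_iff_eq hp Nat.prime_two).1 h1)

theorem Abstract_exists_primitiveRoot (hp : p.Prime) :
    ∃ ζ : AlgebraicClosure ℚ, IsPrimitiveRoot ζ p := by
  have : NeZero p := ⟨hp.ne_zero⟩
  have : NeZero (p : AlgebraicClosure ℚ) := ⟨by exact_mod_cast hp.ne_zero⟩
  obtain ⟨ζ, hζ⟩ := IsAlgClosed.exists_root (Polynomial.cyclotomic p (AlgebraicClosure ℚ))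
    (by
      rw [Polynomial.degree_cyclotomic]
      exact_mod_cast (Nat.totient_pos.mpr hp.pos).ne')
  exact ⟨ζ, Polynomial.isRoot_cyclotomic_iff.mp hζ⟩

/-- `c` from `exists_complexConj`, `det ρ c = -1` by `det_eq_cyclotomic` (`c ζ = ζ⁻¹ = ζ^(p-1)`),
then `exists_det_commutator_ne_zero_of_odd`. -/
theorem exists_commutator (dens : FrobeniusDensity) (hp2 : p ≠ 2)
    (hV : Module.finrank (ZMod p) V = 2) (ρ : GQ →* Module.End (ZMod p) V) (hirr : Irr ρ)
    (hρ : HasLevel ρ) (S : Finset ℕ) (hpS : p ∈ S) (a : ℕ → ZMod p) (hF : FrobRel S a ρ) :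
    ∃ g h : GQ, LinearMap.det (ρ g * ρ h - ρ h * ρ g) ≠ 0 := by
  have hp : p.Prime := Fact.out
  obtain ⟨c, hcc, hc⟩ := exists_complexConj
  obtain ⟨ζ, hζ⟩ := Abstract_exists_primitiveRoot hp
  have hζ0 : ζ ≠ 0 := hζ.ne_zero hp.ne_zero
  have h1 : c ζ = ζ ^ (p - 1) := by
    rw [hc p ζ hp.pos hζ.pow_eq_one]
    apply inv_eq_of_mul_eq_one_left
    rw [← pow_succ, Nat.sub_add_cancel hp.one_le, hζ.pow_eq_one]
  have hdet : LinearMap.det (ρ c) = -1 := by
    rw [det_eq_cyclotomic dens hV ρ hirr hρ S hpS a hF ζ hζ c (p - 1) h1,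
      Nat.cast_sub hp.one_le, ZMod.natCast_self, Nat.cast_one, zero_sub]
  have hρc : ρ c * ρ c = 1 := by rw [← map_mul, hcc, map_one]
  obtain ⟨g, hg⟩ := exists_det_commutator_ne_zero_of_odd (Abstract_two_ne_zero hp hp2) hV ρ hirr c
    hρc hdet
  exact ⟨c, g, hg⟩

theorem two_ne_zero_zmod (hp2 : p ≠ 2) : (2 : ZMod p) ≠ 0 := by
  exact Abstract_two_ne_zero Fact.out hp2

/-- **LP-GAL, abstract form.** -/
theorem exists_embedding_of_frobRel (dens : FrobeniusDensity) (hp2 : p ≠ 2)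
    (hV : Module.finrank (ZMod p) V = 2) (ρ : GQ →* Module.End (ZMod p) V)
    (r : GQ →* Module.End (ZMod p) X) (hirr : Irr ρ) (hρ : HasLevel ρ) (hr : HasLevel r)
    (S : Finset ℕ) (hpS : p ∈ S) (a : ℕ → ZMod p) (hF : FrobRel S a ρ) (hF' : FrobRel S a r)
    [Nontrivial X] :
    ∃ φ : V →ₗ[ZMod p] X, Function.Injective φ ∧ Equivariant ρ r φ :=
  exists_embedding (two_ne_zero_zmod hp2) hV ρ r
    (chRel_of_frobRel dens hV ρ r hirr hρ hr S hpS a hF hF')
    (exists_commutator dens hp2 hV ρ hirr hρ S hpS a hF) hirr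

/-- **LP-GAL, abstract form, with an involution.** -/
theorem exists_embedding_involution_of_frobRel (dens : FrobeniusDensity) (hp2 : p ≠ 2)
    (hV : Module.finrank (ZMod p) V = 2) (ρ : GQ →* Module.End (ZMod p) V)
    (r : GQ →* Module.End (ZMod p) X) (hirr : Irr ρ) (hρ : HasLevel ρ) (hr : HasLevel r)
    (S : Finset ℕ) (hpS : p ∈ S) (a : ℕ → ZMod p) (hF : FrobRel S a ρ) (hF' : FrobRel S a r)
    [Nontrivial X] (w : Module.End (ZMod p) X) (hw : w * w = 1) (hwr : ∀ g, w * r g = r g * w) :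
    ∃ (φ : V →ₗ[ZMod p] X) (s : ZMod p), (s = 1 ∨ s = -1) ∧ Function.Injective φ ∧
      Equivariant ρ r φ ∧ ∀ v, w (φ v) = s • φ v :=
  exists_embedding_involution (two_ne_zero_zmod hp2) hV ρ r
    (chRel_of_frobRel dens hV ρ r hirr hρ hr S hpS a hF hF')
    (exists_commutator dens hp2 hV ρ hirr hρ S hpS a hF) hirr w hw hwr

/-- every element of `X` is a sum of two elements in images of equivariant maps. -/
theorem mem_span_images_of_frobRel (dens : FrobeniusDensity) (hp2 : p ≠ 2)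
    (hV : Module.finrank (ZMod p) V = 2) (ρ : GQ →* Module.End (ZMod p) V)
    (r : GQ →* Module.End (ZMod p) X) (hirr : Irr ρ) (hρ : HasLevel ρ) (hr : HasLevel r)
    (S : Finset ℕ) (hpS : p ∈ S) (a : ℕ → ZMod p) (hF : FrobRel S a ρ) (hF' : FrobRel S a r)
    (x : X) :
    ∃ (φ₁ φ₂ : V →ₗ[ZMod p] X) (v₁ v₂ : V), Equivariant ρ r φ₁ ∧ Equivariant ρ r φ₂ ∧
      x = φ₁ v₁ + φ₂ v₂ :=
  mem_span_images (two_ne_zero_zmod hp2) hV ρ r
    (chRel_of_frobRel dens hV ρ r hirr hρ hr S hpS a hF hF')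
    (exists_commutator dens hp2 hV ρ hirr hρ S hpS a hF) x

end Fermat.Agent.LP.Gal
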