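import Fermat.Agent.LP.Gal.Defs
import Fermat.Agent.S31.MatA
import Fermat.Agent.S31.MatB
import Fermat.Agent.S31.CommId

/-!
# LP-GAL : Boston-Lenstra-Ribet in dimension two (abstract)

`ρ : G → GL(V)`, `dim V = 2`, some commutator `ρ g ρ h - ρ h ρ g` invertible; `r : G → GL(X)` any
representation over the same field `k` (`2 ≠ 0`) such that every `r g` is killed by the
characteristic polynomial of `ρ g` (`CHRel`).  Then every linear relation between the `ρ g` holds
between the `r g` (`blr_key`), so `X` is a module over `End V`.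
-/

set_option autoImplicit false

namespace Fermat.Agent.LP.Gal

variable {k G V X : Type*} [Field k] [Group G] [AddCommGroup V] [Module k V] [Module.Finite k V]
  [AddCommGroup X] [Module k X]

/-- PROOF. `Z := ∑ c g • r g`.  From `r a + det(ρ a) (r a)⁻¹ = tr(ρ a)` summed against `c` for the
elements `g` and `g h`: `Z + Z* = tr (∑ c g ρ g) = 0` and `Z r(h) + det(ρ h) r(h)⁻¹ Z* = 0`
(`Z* := ∑ c g det(ρ g) r(g)⁻¹`), hence (★) `Z r(h) = (tr(ρ h) - r h) Z` for all `h`.  Applying (★)
to `h₁`, `h₂`, `h₁ h₂` and `h₂ h₁` (same trace): `2 (r h₁ r h₂ - r h₂ r h₁) Z = 0`.  By (★) the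
range `N` of `Z` is stable under all `r h`; on `N` the operators `r h₁`, `r h₂` commute, so
`S31.fricke_smul_one_eq_zero_of_commute` (in `End N`) gives `fricke • 1 = 0` on `N`, and
`fricke = det (ρ h₁ ρ h₂ - ρ h₂ ρ h₁) ≠ 0` by `S31.det_commutator`.  So `N = 0`. -/
theorem blr_key (h2 : (2 : k) ≠ 0) (hV : Module.finrank k V = 2) (ρ : G →* Module.End k V)
    (r : G →* Module.End k X) (hCH : CHRel ρ r)
    (hcomm : ∃ g h : G, LinearMap.det (ρ g * ρ h - ρ h * ρ g) ≠ 0)
    (c : G →₀ k) (hc : (c.sum fun g x => x • ρ g) = 0) : (c.sum fun g x => x • r g) = 0 := by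
  obtain ⟨h₁, h₂, hdet⟩ := hcomm
  set t : G → k := fun g => LinearMap.trace k V (ρ g) with ht
  set d : G → k := fun g => LinearMap.det (ρ g) with hd
  have hdmul : ∀ g h, d (g * h) = d g * d h := fun g h => by
    simp only [hd, map_mul]
  have hrinv : ∀ g, r g * r g⁻¹ = 1 := fun g => by rw [← map_mul, mul_inv_cancel, map_one]
  -- (1)
  have h1 : ∀ g, d g • r g⁻¹ = t g • 1 - r g := by
    intro g
    have h := congrArg (· * r g⁻¹) (hCH g)
    simp only [add_mul, sub_mul, zero_mul, smul_mul_assoc, one_mul, mul_assoc, hrinv, mul_one] at h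
    rw [eq_sub_iff_add_eq]
    have h' : r g - t g • (1 : Module.End k X) + d g • r g⁻¹ = 0 := h
    rw [← sub_eq_zero]
    rw [← h']
    abel
  unfold Finsupp.sum at hc ⊢
  set s := c.support with hs
  set Z : Module.End k X := ∑ g ∈ s, c g • r g with hZ
  have hT0 : ∑ g ∈ s, c g * t g = 0 := by
    have h := congrArg (LinearMap.trace k V) hc
    simpa [map_sum] using h
  have hTh : ∀ h, ∑ g ∈ s, c g * t (g * h) = 0 := by
    intro h
    have h' := congrArg (fun f => LinearMap.trace k V (f * ρ h)) hc
    simp only [Finset.sum_mul, smul_mul_assoc, ← map_mul, zero_mul, map_zero, map_sum, map_smul,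
      smul_eq_mul] at h'
    exact h'
  -- (★)
  have star : ∀ h, Z * r h = (t h • 1 - r h) * Z := by
    intro h
    have hg : ∀ g ∈ s, c g • (r g * r h) + d h • (r h⁻¹ * (c g • (t g • 1 - r g))) =
        (c g * t (g * h)) • (1 : Module.End k X) := by
      intro g _
      have e1 := h1 (g * h)
      rw [hdmul, mul_inv_rev, map_mul, map_mul] at e1
      have e0 : d h • (r h⁻¹ * (c g • (d g • r g⁻¹))) =
          c g • ((d g * d h) • (r h⁻¹ * r g⁻¹)) := by
        rw [mul_smul_comm, mul_smul_comm, smul_smul, smul_smul, smul_smul]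
        congr 1
        ring
      rw [← h1 g, e0, e1, ← smul_add, mul_smul]
      congr 1
      abel
    have hsum := Finset.sum_congr rfl hg
    rw [Finset.sum_add_distrib, ← Finset.smul_sum, ← Finset.mul_sum, ← Finset.sum_smul, hTh h,
      zero_smul] at hsum
    have e2 : ∑ g ∈ s, c g • (r g * r h) = Z * r h := by
      rw [hZ, Finset.sum_mul]
      exact Finset.sum_congr rfl fun g _ => (smul_mul_assoc _ _ _).symm
    have e3 : ∑ g ∈ s, c g • (t g • (1 : Module.End k X) - r g) = - Z := by
      simp only [smul_sub, Finset.sum_sub_distrib, smul_smul]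
      rw [← Finset.sum_smul, hT0, zero_smul, zero_sub]
    rw [e2, e3, mul_neg, smul_neg, ← sub_eq_add_neg, sub_eq_zero] at hsum
    rw [hsum, ← smul_mul_assoc, h1 h]
  -- the commutator kills `Z`
  set a := r h₁ with ha
  set b := r h₂ with hb
  have ht12 : t (h₂ * h₁) = t (h₁ * h₂) := by
    simp only [ht, map_mul]
    exact LinearMap.trace_mul_comm k _ _
  have E1 : (t h₁ • 1 - a) * ((t h₂ • 1 - b) * Z) = (t (h₁ * h₂) • 1 - a * b) * Z := by
    have e := star (h₁ * h₂)
    rw [map_mul, ← mul_assoc, star h₁, mul_assoc, star h₂] at e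
    exact e
  have E2 : (t h₂ • 1 - b) * ((t h₁ • 1 - a) * Z) = (t (h₁ * h₂) • 1 - b * a) * Z := by
    have e := star (h₂ * h₁)
    rw [map_mul, ← mul_assoc, star h₂, mul_assoc, star h₁, ht12] at e
    exact e
  have hcz : (a * b - b * a) * Z = 0 := by
    have h3 : (2 : k) • ((a * b - b * a) * Z) = 0 := by
      simp only [sub_mul, mul_sub, smul_mul_assoc, mul_smul_comm, one_mul, smul_sub,
        mul_assoc] at E1 E2 ⊢
      have e3 := congrArg₂ (fun x y : Module.End k X => x - y) E1 E2
      rw [← sub_eq_zero] at e3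
      rw [← e3]
      module
    exact (smul_eq_zero.1 h3).resolve_left h2
  -- the range of `Z`
  let N : Submodule k X := LinearMap.range Z
  have hst : ∀ g : G, ∀ v ∈ N, r g v ∈ N := by
    rintro g v ⟨u, rfl⟩
    refine ⟨t g • u - r g u, ?_⟩
    have e := congrArg (fun f : Module.End k X => f u) (star g)
    simp only [Module.End.mul_apply, LinearMap.sub_apply, LinearMap.smul_apply,
      Module.End.one_apply] at e
    rw [map_sub, map_smul, e]
    abel
  let res : G → Module.End k N := fun g => (r g).restrict (hst g)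
  have res_mul : ∀ g h : G, res (g * h) = res g * res h := by
    intro g h
    ext v
    show r (g * h) v = r g (r h v)
    rw [map_mul]
    rfl
  have res_one : res 1 = 1 := by
    ext v
    show r 1 v = v
    rw [map_one]
    rfl
  have res_unit : ∀ g : G, IsUnit (res g) := by
    intro g
    refine ⟨⟨res g, res g⁻¹, ?_, ?_⟩, rfl⟩
    · rw [← res_mul, mul_inv_cancel, res_one]
    · rw [← res_mul, inv_mul_cancel, res_one]
  have hcommute : Commute (res h₁) (res h₂) := by
    ext ⟨v, u, rfl⟩
    show a (b (Z u)) = b (a (Z u))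
    have e := congrArg (fun f : Module.End k X => f u) hcz
    simp only [Module.End.mul_apply, LinearMap.sub_apply, LinearMap.zero_apply] at e
    exact sub_eq_zero.1 e
  have hrel : ∀ g : G, res g * res g - t g • res g + d g • (1 : Module.End k N) = 0 := by
    intro g
    ext v
    have e := congrArg (fun f : Module.End k X => f (v : X)) (hCH g)
    exact e
  have hfr := S31.fricke_smul_one_eq_zero_of_commute (res h₁) (res h₂) (res_unit h₁) (res_unit h₂)
    hcommute (t h₁) (t h₂) (t (h₁ * h₂)) (d h₁) (d h₂) (hrel h₁) (hrel h₂)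
    (by rw [← res_mul, ← hdmul]; exact hrel (h₁ * h₂))
  have hfr0 : S31.fricke (t h₁) (t h₂) (t (h₁ * h₂)) (d h₁) (d h₂) ≠ 0 := by
    have e := S31.det_commutator hV (ρ h₁) (ρ h₂)
    rw [e] at hdet
    simpa only [ht, hd, map_mul] using hdet
  ext u
  have e := congrArg (fun f : Module.End k N => ((f ⟨Z u, ⟨u, rfl⟩⟩ : N) : X)) hfr
  simp only [LinearMap.smul_apply, Module.End.one_apply, LinearMap.zero_apply,
    Submodule.coe_smul, Submodule.coe_zero] at e
  exact (smul_eq_zero.1 e).resolve_left hfr0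

end Fermat.Agent.LP.Gal
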