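import Fermat.Agent.LP.Gal.BLR

/-!
# LP-GAL : `X` is a module over `End V`
-/

set_option autoImplicit false

namespace Fermat.Agent.LP.Gal

variable {k G V X : Type*} [Field k] [Group G] [AddCommGroup V] [Module k V] [Module.Finite k V]
  [AddCommGroup X] [Module k X]

/-- PROOF. If the span `U` were proper there would be a nonzero linear form on `End V` vanishing on
`U`; every linear form is `A ↦ tr (Z A)` (`LinearMap.traceForm` is nondegenerate), and
`S31.mem_smul_top_of_trace_mem` with `I = ⊥`, `X = ρ g`, `Y = ρ h` gives `Z = 0`.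
(Or: dimension count, `1, ρ g, ρ h, ρ (g h)` are linearly independent.) -/
theorem span_range_eq_top (hV : Module.finrank k V = 2) (ρ : G →* Module.End k V)
    (hcomm : ∃ g h : G, LinearMap.det (ρ g * ρ h - ρ h * ρ g) ≠ 0) :
    Submodule.span k (Set.range ρ) = ⊤ := by
  by_contra hU
  obtain ⟨g, h, hgh⟩ := hcomm
  have hlt : Module.finrank k (Submodule.span k (Set.range ρ)) <
      Module.finrank k (Module.End k V) := Submodule.finrank_lt hU
  let Θ : Module.End k V →ₗ[k] Module.Dual k (Submodule.span k (Set.range ρ)) :=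
    ((LinearMap.mul k (Module.End k V)).compr₂ (LinearMap.trace k V)).compl₂
      (Submodule.span k (Set.range ρ)).subtype
  have hΘ : ∀ (Z : Module.End k V) (e : Submodule.span k (Set.range ρ)),
      Θ Z e = LinearMap.trace k V (Z * (e : Module.End k V)) := fun Z e => rfl
  have hker : LinearMap.ker Θ ≠ ⊥ := by
    apply LinearMap.ker_ne_bot_of_finrank_lt
    rw [Subspace.dual_finrank_eq]
    exact hlt
  obtain ⟨Z, hZ, hZ0⟩ := Submodule.exists_mem_ne_zero_of_ne_bot hker
  have hZ' : ∀ a : G, LinearMap.trace k V (Z * ρ a) = 0 := by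
    intro a
    have h1 : Θ Z ⟨ρ a, Submodule.subset_span ⟨a, rfl⟩⟩ = 0 := by
      rw [LinearMap.mem_ker.mp hZ]
      rfl
    rw [hΘ] at h1
    exact h1
  apply hZ0
  have h0 := Fermat.Agent.S31.mem_smul_top_of_trace_mem hV ⊥ (ρ g) (ρ h) Z
    (isUnit_iff_ne_zero.mpr hgh)
    (by
      have := hZ' 1
      rw [map_one, mul_one] at this
      rw [this]
      exact Submodule.zero_mem _)
    (by rw [hZ' g]; exact Submodule.zero_mem _)
    (by rw [hZ' h]; exact Submodule.zero_mem _)
    (by rw [← map_mul, hZ' (g * h)]; exact Submodule.zero_mem _)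
  ext v
  have := h0 v
  rw [Submodule.bot_smul, Submodule.mem_bot] at this
  rw [this]
  rfl

/-- PROOF. `Γ := span {(ρ g, r g)} ⊆ End V × End X` is closed under multiplication, contains `1`;
the first projection `Γ → End V` is surjective (`span_range_eq_top`) and injective (`blr_key`,
via `Finsupp.mem_span_range_iff_exists_finsupp`).  `Ψ := pr₂ ∘ pr₁⁻¹`. -/
theorem exists_algHom (h2 : (2 : k) ≠ 0) (hV : Module.finrank k V = 2) (ρ : G →* Module.End k V)
    (r : G →* Module.End k X) (hCH : CHRel ρ r)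
    (hcomm : ∃ g h : G, LinearMap.det (ρ g * ρ h - ρ h * ρ g) ≠ 0) :
    ∃ Ψ : Module.End k V →ₐ[k] Module.End k X, ∀ g, Ψ (ρ g) = r g := by
  classical
  let Lρ : MonoidAlgebra k G →ₐ[k] Module.End k V := MonoidAlgebra.lift k (Module.End k V) G ρ
  let Lr : MonoidAlgebra k G →ₐ[k] Module.End k X := MonoidAlgebra.lift k (Module.End k X) G r
  have hsurj : Function.Surjective Lρ := by
    intro A
    have hA : A ∈ Submodule.span k (Set.range ρ) := by
      rw [span_range_eq_top hV ρ hcomm]
      trivial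
    obtain ⟨c, hc⟩ := (Finsupp.mem_span_range_iff_exists_finsupp).mp hA
    exact ⟨MonoidAlgebra.ofCoeff c, by
      show MonoidAlgebra.lift k (Module.End k V) G ρ _ = A
      rw [MonoidAlgebra.lift_apply]
      exact hc⟩
  have hker : ∀ a, a ∈ RingHom.ker Lρ → Lr a = 0 := by
    intro a ha
    rw [RingHom.mem_ker] at ha
    have h1 := blr_key h2 hV ρ r hCH hcomm a.coeff (by
      rw [← MonoidAlgebra.lift_apply]
      exact ha)
    show MonoidAlgebra.lift k (Module.End k X) G r a = 0
    rw [MonoidAlgebra.lift_apply]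
    exact h1
  refine ⟨(Ideal.Quotient.liftₐ (RingHom.ker Lρ) Lr hker).comp
    (Ideal.quotientKerAlgEquivOfSurjective hsurj).symm.toAlgHom, fun g => ?_⟩
  have e : ρ g = Lρ (MonoidAlgebra.of k G g) := (MonoidAlgebra.lift_of ρ g).symm
  have e' : r g = Lr (MonoidAlgebra.of k G g) := (MonoidAlgebra.lift_of r g).symm
  rw [e, e', AlgHom.comp_apply]
  have e2 : (Ideal.quotientKerAlgEquivOfSurjective hsurj).symm.toAlgHom
      (Lρ (MonoidAlgebra.of k G g)) = Ideal.Quotient.mk _ (MonoidAlgebra.of k G g) :=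
    Ideal.quotientKerAlgEquivOfSurjective_symm_apply hsurj _
  rw [e2]
  rfl

end Fermat.Agent.LP.Gal
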