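import Fermat.Agent.LP.Gal.Defs

/-!
# LP-GAL : every element is a power of a Frobenius element

`ρ : G_ℚ → GL(V)`, `dim V = 2` over `ZMod p`, irreducible, of finite level, such that
`ρ(τ)² - a_ℓ ρ(τ) + ℓ = 0` for all Frobenius elements `τ` at all primes `ℓ ∉ S`.
Only Frobenius' density theorem (`GR.H.FrobeniusDensity`, proved in `GR/H/Final.lean`) is used.
-/

set_option autoImplicit false

namespace Fermat.Agent.LP.Gal

open Fermat.Agent.GR.H (GQ FrobeniusDensity)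

variable {p : ℕ} [Fact p.Prime]
variable {V X : Type*} [AddCommGroup V] [Module (ZMod p) V] [AddCommGroup X] [Module (ZMod p) X]

theorem DensityA_eq_of_agree {M : Type*} [AddCommGroup M] [Module (ZMod p) M]
    (r : GQ →* Module.End (ZMod p) M) (L : IntermediateField ℚ (AlgebraicClosure ℚ))
    (hL : ∀ σ : GQ, (∀ x ∈ L, σ x = x) → r σ = 1) {σ σ' : GQ} (h : ∀ x ∈ L, σ x = σ' x) :
    r σ = r σ' := by
  have h1 : r (σ'⁻¹ * σ) = 1 := by
    refine hL _ fun x hx => ?_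
    rw [AlgEquiv.mul_apply, h x hx]
    exact AlgEquiv.symm_apply_apply σ' x
  have h2 : σ = σ' * (σ'⁻¹ * σ) := by group
  rw [h2, map_mul, h1, mul_one]

/-- PROOF. apply `dens` to the compositum of the two levels and `ℚ(ζ)`; if `σ, σ'` agree on the
level of `r` then `r σ = r σ'` (`σ⁻¹ σ'` fixes it). -/
theorem exists_frob_pow (dens : FrobeniusDensity) (ρ : GQ →* Module.End (ZMod p) V)
    (r : GQ →* Module.End (ZMod p) X) (hρ : HasLevel ρ) (hr : HasLevel r) (S : Finset ℕ)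
    (ζ : AlgebraicClosure ℚ) (g : GQ) :
    ∃ (ℓ : ℕ) (A : ValuationSubring (AlgebraicClosure ℚ)) (τ : GQ) (j i : ℕ),
      ℓ.Prime ∧ ℓ ∉ S ∧ A.LiesOverPrime ℓ ∧ A.IsFrobeniusAt τ ℓ ∧
        ρ g = ρ τ ^ j ∧ r g = r τ ^ j ∧ ρ τ = ρ g ^ i ∧ g ζ = (τ ^ j) ζ := by
  obtain ⟨L1, hL1fin, hL1⟩ := hρ
  obtain ⟨L2, hL2fin, hL2⟩ := hr
  have hζint : IsIntegral ℚ ζ := (AlgebraicClosure.isAlgebraic ℚ).isIntegral.isIntegral ζ
  have hL3fin : FiniteDimensional ℚ (IntermediateField.adjoin ℚ {ζ}) :=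
    IntermediateField.adjoin.finiteDimensional hζint
  have hL12 : FiniteDimensional ℚ (L1 ⊔ L2 : IntermediateField ℚ (AlgebraicClosure ℚ)) :=
    IntermediateField.finiteDimensional_sup L1 L2
  have hLfin : FiniteDimensional ℚ
      ((L1 ⊔ L2) ⊔ IntermediateField.adjoin ℚ {ζ} : IntermediateField ℚ (AlgebraicClosure ℚ)) :=
    IntermediateField.finiteDimensional_sup _ _
  obtain ⟨ℓ, A, τ, h1, h2, h3, h4, ⟨k, hk⟩, ⟨j, hj⟩⟩ :=
    dens ((L1 ⊔ L2) ⊔ IntermediateField.adjoin ℚ {ζ}) hLfin S g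
  have hle1 : L1 ≤ (L1 ⊔ L2) ⊔ IntermediateField.adjoin ℚ {ζ} := le_sup_left.trans le_sup_left
  have hle2 : L2 ≤ (L1 ⊔ L2) ⊔ IntermediateField.adjoin ℚ {ζ} := le_sup_right.trans le_sup_left
  have hζmem : ζ ∈ ((L1 ⊔ L2) ⊔ IntermediateField.adjoin ℚ {ζ} :
      IntermediateField ℚ (AlgebraicClosure ℚ)) :=
    (le_sup_right : IntermediateField.adjoin ℚ {ζ} ≤ _) (IntermediateField.mem_adjoin_simple_self ℚ ζ)
  refine ⟨ℓ, A, τ, k, j, h1, h2, h3, h4, ?_, ?_, ?_, (hk ζ hζmem).symm⟩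
  · rw [← map_pow]
    exact DensityA_eq_of_agree ρ L1 hL1 fun x hx => (hk x (hle1 hx)).symm
  · rw [← map_pow]
    exact DensityA_eq_of_agree r L2 hL2 fun x hx => (hk x (hle2 hx)).symm
  · rw [← map_pow]
    exact DensityA_eq_of_agree ρ L1 hL1 fun x hx => (hj x (hle1 hx)).symm

end Fermat.Agent.LP.Gal
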