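import Fermat.Agent.GR.H.Det
import Fermat.Agent.LP.Gal.DensityA

/-!
# LP-GAL : determinant and trace of Frobenius elements

`ρ : G_ℚ → GL(V)`, `dim V = 2` over `ZMod p`, irreducible, of finite level, such that
`ρ(τ)² - a_ℓ ρ(τ) + ℓ = 0` for all Frobenius elements `τ` at all primes `ℓ ∉ S`.
Only Frobenius' density theorem (`GR.H.FrobeniusDensity`, proved in `GR/H/Final.lean`) is used.
-/

set_option autoImplicit false

namespace Fermat.Agent.LP.Gal

open Fermat.Agent.GR.H (GQ FrobeniusDensity)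

variable {p : ℕ} [Fact p.Prime]
variable {V X : Type*} [AddCommGroup V] [Module (ZMod p) V] [AddCommGroup X] [Module (ZMod p) X]

variable [Module.Finite (ZMod p) V]

/-- a non-scalar endomorphism of a plane killed by `X² - aX + d` has trace `a`, determinant `d`. -/
theorem trace_det_of_not_scalar {k W : Type*} [Field k] [AddCommGroup W] [Module k W]
    [Module.Finite k W] (hW : Module.finrank k W = 2) (f : Module.End k W) (a d : k)
    (hf : f * f - a • f + d • 1 = 0) (hns : ¬ ∃ s : k, f = s • 1) :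
    LinearMap.trace k W f = a ∧ LinearMap.det f = d := by
  let b : Module.Basis (Fin 2) k W := Module.finBasisOfFinrankEq k W hW
  let e := LinearMap.toMatrixAlgEquiv b
  have hM : e f * e f - a • e f + d • 1 = 0 := by
    have := congrArg e hf
    simpa only [map_add, map_sub, map_mul, map_smul, map_one, map_zero] using this
  have hnsM : ¬ ∃ s : k, e f = s • 1 := by
    rintro ⟨s, hs⟩
    refine hns ⟨s, e.injective ?_⟩
    rw [hs, map_smul, map_one]
  obtain ⟨ht, hd⟩ := GR.H.Det_matrix_trace_det (e f) a d hM hnsM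
  refine ⟨?_, ?_⟩
  · rw [← ht, LinearMap.trace_eq_matrix_trace k b f]
    rfl
  · rw [← hd]
    exact (LinearMap.det_toMatrix b f).symm

/-- an irreducible representation on a plane has a non-scalar element. -/
theorem exists_not_scalar {k G W : Type*} [Field k] [Group G] [AddCommGroup W] [Module k W]
    [Module.Finite k W] (hW : Module.finrank k W = 2) (ρ : G →* Module.End k W) (hirr : Irr ρ) :
    ∃ g : G, ¬ ∃ s : k, ρ g = s • 1 := by
  by_contra hcon
  push Not at hcon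
  have : Nontrivial W := Module.nontrivial_of_finrank_pos (R := k) (by omega)
  obtain ⟨v, hv⟩ := exists_ne (0 : W)
  have hst : ∀ g : G, ∀ x ∈ Submodule.span k {v}, ρ g x ∈ Submodule.span k {v} := by
    intro g x hx
    obtain ⟨s, hs⟩ := hcon g
    rw [hs]
    simpa using Submodule.smul_mem _ s hx
  rcases hirr _ hst with h | h
  · exact hv ((Submodule.span_singleton_eq_bot).1 h)
  · have h1 : Module.finrank k (Submodule.span k {v}) = 1 := finrank_span_singleton hv
    rw [h, finrank_top, hW] at h1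
    omega

theorem det_smul_one_plane {k W : Type*} [Field k] [AddCommGroup W] [Module k W]
    (hW : Module.finrank k W = 2) (s : k) :
    LinearMap.det (s • (1 : Module.End k W)) = s ^ 2 := by
  rw [LinearMap.det_smul, hW, map_one, mul_one]

theorem trace_smul_one_plane {k W : Type*} [Field k] [AddCommGroup W] [Module k W]
    [Module.Finite k W] (hW : Module.finrank k W = 2) (s : k) :
    LinearMap.trace k W (s • (1 : Module.End k W)) = 2 * s := by
  rw [map_smul, LinearMap.trace_one, hW, smul_eq_mul, mul_comm]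
  norm_num

/-- two exponents of a primitive `p`-th root of unity giving the same power agree in `ZMod p`. -/
theorem natCast_eq_of_pow_eq {K : Type*} [Field K] {ζ : K} (hζ : IsPrimitiveRoot ζ p) {e f : ℕ}
    (h : ζ ^ e = ζ ^ f) : (e : ZMod p) = (f : ZMod p) := by
  rw [ZMod.natCast_eq_natCast_iff]
  have hfin : IsOfFinOrder ζ :=
    isOfFinOrder_iff_pow_eq_one.2 ⟨p, (Fact.out : p.Prime).pos, hζ.pow_eq_one⟩
  have := hfin.pow_eq_pow_iff_modEq.1 h
  rwa [← hζ.eq_orderOf] at this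

/-- the non-scalar case of `det_eq_cyclotomic`. -/
theorem det_eq_cyclotomic_of_not_scalar (dens : FrobeniusDensity)
    (hV : Module.finrank (ZMod p) V = 2)
    (ρ : GQ →* Module.End (ZMod p) V) (hρ : HasLevel ρ) (S : Finset ℕ)
    (hpS : p ∈ S) (a : ℕ → ZMod p) (hF : FrobRel S a ρ) (ζ : AlgebraicClosure ℚ)
    (hζ : IsPrimitiveRoot ζ p) (g : GQ) (hns : ¬ ∃ s : ZMod p, ρ g = s • 1)
    (e : ℕ) (hg : g ζ = ζ ^ e) :
    LinearMap.det (ρ g) = (e : ZMod p) := by
  obtain ⟨ℓ, A, τ, j, i, hℓ, hℓS, hA, hτ, h1, -, -, h4⟩ := exists_frob_pow dens ρ ρ hρ hρ S ζ g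
  have hnsτ : ¬ ∃ s : ZMod p, ρ τ = s • 1 := by
    rintro ⟨s, hs⟩
    refine hns ⟨s ^ j, ?_⟩
    rw [h1, hs, smul_pow, one_pow]
  have hdet := (trace_det_of_not_scalar hV (ρ τ) (a ℓ) (ℓ : ZMod p) (hF ℓ hℓ hℓS A hA τ hτ)
    hnsτ).2
  have hℓp : ¬ ℓ ∣ p := by
    intro hd
    have : ℓ = p := (Nat.prime_dvd_prime_iff_eq hℓ (Fact.out : p.Prime)).1 hd
    exact hℓS (this ▸ hpS)
  have hτζ : τ ζ = ζ ^ ℓ := GR.H.frobenius_rootOfUnity A ℓ hℓ hA τ hτ p hℓp ζ hζ.pow_eq_one
  have h5 : ζ ^ e = ζ ^ (ℓ ^ j) := by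
    rw [← hg, h4, GR.H.Det_pow_apply_root τ ζ ℓ hτζ j]
  rw [h1, map_pow, hdet, natCast_eq_of_pow_eq hζ h5]
  push_cast
  rfl

/-- PROOF ("non-scalar elements generate"). -/
theorem det_eq_cyclotomic (dens : FrobeniusDensity) (hV : Module.finrank (ZMod p) V = 2)
    (ρ : GQ →* Module.End (ZMod p) V) (hirr : Irr ρ) (hρ : HasLevel ρ) (S : Finset ℕ)
    (hpS : p ∈ S) (a : ℕ → ZMod p) (hF : FrobRel S a ρ) (ζ : AlgebraicClosure ℚ)
    (hζ : IsPrimitiveRoot ζ p) (g : GQ) (e : ℕ) (hg : g ζ = ζ ^ e) :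
    LinearMap.det (ρ g) = (e : ZMod p) := by
  by_cases hns : ∃ s : ZMod p, ρ g = s • 1
  · obtain ⟨s, hs⟩ := hns
    obtain ⟨g₀, hg₀⟩ := exists_not_scalar hV ρ hirr
    have hp0 : 0 < p := (Fact.out : p.Prime).pos
    -- `g₀ ζ` is a power of `ζ`
    obtain ⟨e₀, -, he₀⟩ := hζ.eq_pow_of_pow_eq_one (ξ := g₀ ζ)
      (by rw [← map_pow, hζ.pow_eq_one, map_one])
    have hd0 := det_eq_cyclotomic_of_not_scalar dens hV ρ hρ S hpS a hF ζ hζ g₀ hg₀ e₀ he₀.symm
    -- `s ≠ 0`
    have hs0 : s ≠ 0 := by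
      rintro rfl
      have h1 : ρ g * ρ g⁻¹ = 1 := by rw [← map_mul, mul_inv_cancel, map_one]
      rw [hs, zero_smul, zero_mul] at h1
      have : Nontrivial V := Module.nontrivial_of_finrank_pos (R := ZMod p) (by omega)
      exact zero_ne_one h1
    have hns' : ¬ ∃ t : ZMod p, ρ (g * g₀) = t • 1 := by
      rintro ⟨t, ht⟩
      refine hg₀ ⟨s⁻¹ * t, ?_⟩
      rw [map_mul, hs, smul_mul_assoc, one_mul] at ht
      rw [mul_smul, ← ht, smul_smul, inv_mul_cancel₀ hs0, one_smul]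
    have hgg : (g * g₀) ζ = ζ ^ (e₀ * e) := by
      rw [AlgEquiv.mul_apply, ← he₀, map_pow, hg, ← pow_mul, mul_comm]
    have hd1 := det_eq_cyclotomic_of_not_scalar dens hV ρ hρ S hpS a hF ζ hζ (g * g₀) hns'
      (e₀ * e) hgg
    rw [map_mul, map_mul, hd0] at hd1
    have he0 : (e₀ : ZMod p) ≠ 0 := by
      intro h0
      rw [h0] at hd0
      have h1 : LinearMap.det (ρ g₀) * LinearMap.det (ρ g₀⁻¹) = 1 := by
        rw [← map_mul, ← map_mul, mul_inv_cancel, map_one, map_one]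
      rw [hd0, zero_mul] at h1
      exact zero_ne_one h1
    push_cast at hd1
    have : LinearMap.det (ρ g) * (e₀ : ZMod p) = (e : ZMod p) * (e₀ : ZMod p) := by
      rw [hd1]; ring
    exact mul_right_cancel₀ he0 this
  · exact det_eq_cyclotomic_of_not_scalar dens hV ρ hρ S hpS a hF ζ hζ g hns e hg

/-- trace and determinant of the Frobenius elements. -/
theorem trace_det_frobenius (dens : FrobeniusDensity) (hV : Module.finrank (ZMod p) V = 2)
    (ρ : GQ →* Module.End (ZMod p) V) (hirr : Irr ρ) (hρ : HasLevel ρ) (S : Finset ℕ)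
    (hpS : p ∈ S) (a : ℕ → ZMod p) (hF : FrobRel S a ρ) {ℓ : ℕ} (hℓ : ℓ.Prime) (hℓS : ℓ ∉ S)
    (A : ValuationSubring (AlgebraicClosure ℚ)) (hA : A.LiesOverPrime ℓ) (τ : GQ)
    (hτ : A.IsFrobeniusAt τ ℓ) :
    LinearMap.trace (ZMod p) V (ρ τ) = a ℓ ∧ LinearMap.det (ρ τ) = (ℓ : ZMod p) := by
  have hrel := hF ℓ hℓ hℓS A hA τ hτ
  by_cases hns : ∃ s : ZMod p, ρ τ = s • 1
  · obtain ⟨s, hs⟩ := hns
    have hp : p.Prime := Fact.out
    have hℓp : ¬ ℓ ∣ p := by
      intro hd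
      have : ℓ = p := (Nat.prime_dvd_prime_iff_eq hℓ hp).1 hd
      exact hℓS (this ▸ hpS)
    have : NeZero (p : AlgebraicClosure ℚ) := ⟨by exact_mod_cast hp.ne_zero⟩
    obtain ⟨ζ, hζ⟩ := HasEnoughRootsOfUnity.exists_primitiveRoot (AlgebraicClosure ℚ) p
    have hτζ : τ ζ = ζ ^ ℓ := GR.H.frobenius_rootOfUnity A ℓ hℓ hA τ hτ p hℓp ζ hζ.pow_eq_one
    have hdet := det_eq_cyclotomic dens hV ρ hirr hρ S hpS a hF ζ hζ τ ℓ hτζ
    refine ⟨?_, hdet⟩
    rw [hs, det_smul_one_plane hV] at hdet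
    rw [hs, trace_smul_one_plane hV]
    have : Nontrivial V := Module.nontrivial_of_finrank_pos (R := ZMod p) (by omega)
    have hq : (s * s - a ℓ * s + (ℓ : ZMod p)) • (1 : Module.End (ZMod p) V) = 0 := by
      rw [← hrel, hs]
      simp only [smul_mul_smul_comm, mul_one, smul_smul, add_smul, sub_smul]
    have hq' : s * s - a ℓ * s + (ℓ : ZMod p) = 0 := by
      rcases smul_eq_zero.1 hq with h | h
      · exact h
      · exact absurd h one_ne_zero
    have hs0 : s ≠ 0 := by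
      rintro rfl
      have hl0 : (ℓ : ZMod p) = 0 := by rw [← hdet]; ring
      rw [ZMod.natCast_eq_zero_iff] at hl0
      exact hℓp (((Nat.prime_dvd_prime_iff_eq hp hℓ).1 hl0) ▸ dvd_rfl)
    have : (2 * s - a ℓ) * s = 0 := by
      rw [← hdet] at hq'
      linear_combination hq'
    rcases mul_eq_zero.1 this with h | h
    · exact sub_eq_zero.1 h
    · exact absurd h hs0
  · exact trace_det_of_not_scalar hV (ρ τ) (a ℓ) (ℓ : ZMod p) hrel hns

end Fermat.Agent.LP.Gal
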