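import Fermat.Agent.S31.MatA
import Fermat.Agent.S31.CommId
import Fermat.Agent.LP.Gal.DensityB

/-!
# LP-GAL : Cayley-Hamilton relations for all of `G_ℚ`

`ρ : G_ℚ → GL(V)`, `dim V = 2` over `ZMod p`, irreducible, of finite level, such that
`ρ(τ)² - a_ℓ ρ(τ) + ℓ = 0` for all Frobenius elements `τ` at all primes `ℓ ∉ S`.
Only Frobenius' density theorem (`GR.H.FrobeniusDensity`, proved in `GR/H/Final.lean`) is used.
-/

set_option autoImplicit false

namespace Fermat.Agent.LP.Gal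

open Fermat.Agent.GR.H (GQ FrobeniusDensity)

variable {p : ℕ} [Fact p.Prime]
variable {V X : Type*} [AddCommGroup V] [Module (ZMod p) V] [AddCommGroup X] [Module (ZMod p) X]

variable [Module.Finite (ZMod p) V]

/-- PROOF. `g`: `ρ g = ρ(τ)^j`, `r g = r(τ)^j` (`exists_frob_pow`); `S31.pow_relation` for `r τ`,
`S31.trace_pow_eq_powSum` and `map_pow` of `det` for `ρ τ`, `trace_det_frobenius`. -/
theorem chRel_of_frobRel (dens : FrobeniusDensity) (hV : Module.finrank (ZMod p) V = 2)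
    (ρ : GQ →* Module.End (ZMod p) V) (r : GQ →* Module.End (ZMod p) X) (hirr : Irr ρ)
    (hρ : HasLevel ρ) (hr : HasLevel r) (S : Finset ℕ) (hpS : p ∈ S) (a : ℕ → ZMod p)
    (hF : FrobRel S a ρ) (hF' : FrobRel S a r) : CHRel ρ r := by
  intro g
  obtain ⟨ℓ, A, τ, j, i, hℓ, hℓS, hA, hτ, hρg, hrg, -, -⟩ :=
    exists_frob_pow dens ρ r hρ hr S (0 : AlgebraicClosure ℚ) g
  obtain ⟨htr, hdet⟩ := trace_det_frobenius dens hV ρ hirr hρ S hpS a hF hℓ hℓS A hA τ hτ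
  have h1 := Fermat.Agent.S31.pow_relation (r τ) (a ℓ) (ℓ : ZMod p) (hF' ℓ hℓ hℓS A hA τ hτ) j
  rw [hρg, hrg, Fermat.Agent.S31.trace_pow_eq_powSum hV, map_pow, htr, hdet]
  exact h1

end Fermat.Agent.LP.Gal
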