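import Fermat.Agent.LP.Gal.ECDefs

/-!
# LP-GAL : `E[p]` : dimension, irreducibility, Frobenius relations (from `X1`, `X3`)
-/

set_option autoImplicit false

open WeierstrassCurve WeierstrassCurve.Affine WeierstrassCurve.Affine.Point

namespace Fermat.Agent.LP.Gal

open Fermat.Agent.GR.H (GQ FrobeniusDensity)

theorem not_mem_badSet {W : WeierstrassCurve ℤ} (hΔ : W.Δ ≠ 0) {p ℓ : ℕ} (hℓ : ℓ.Prime)
    (h : ℓ ∉ badSet W p) : 5 ≤ ℓ ∧ ℓ ≠ p ∧ ¬ (ℓ : ℤ) ∣ W.Δ := by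
  simp only [badSet, Finset.mem_insert, not_or] at h
  obtain ⟨h2, h3, hp, hf⟩ := h
  refine ⟨?_, hp, fun hd => hf ?_⟩
  · have h1 := hℓ.two_le
    have h4 : ℓ ≠ 4 := by
      rintro rfl
      exact absurd hℓ (by norm_num)
    omega
  · rw [Nat.mem_primeFactors]
    exact ⟨hℓ, Int.natCast_dvd.1 hd, Int.natAbs_ne_zero.2 hΔ⟩

variable {p : ℕ} [Fact p.Prime]

theorem ECRepA_finite (h1 : X1) (W : WeierstrassCurve ℤ) (hΔ : W.Δ ≠ 0) :
    Finite (Tor (toQ W) p) := by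
  have hp : p.Prime := Fact.out
  refine Nat.finite_of_card_ne_zero ?_
  rw [h1 W hΔ p hp.pos]
  exact pow_ne_zero 2 hp.ne_zero

/-- `Nat.card = p ^ finrank`. -/
theorem finite_tor (h1 : X1) (W : WeierstrassCurve ℤ) (hΔ : W.Δ ≠ 0) :
    Module.Finite (ZMod p) (Tor (toQ W) p) := by
  have := ECRepA_finite (p := p) h1 W hΔ
  exact Module.Finite.of_finite

theorem finrank_tor (h1 : X1) (W : WeierstrassCurve ℤ) (hΔ : W.Δ ≠ 0) :
    Module.finrank (ZMod p) (Tor (toQ W) p) = 2 := by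
  have hp : p.Prime := Fact.out
  have := finite_tor (p := p) h1 W hΔ
  have h2 := Module.natCard_eq_pow_finrank (K := ZMod p) (V := Tor (toQ W) p)
  rw [h1 W hΔ p hp.pos, Nat.card_zmod] at h2
  exact (Nat.pow_right_injective hp.two_le h2).symm

/-- unfolding of `GaloisRepIsIrreducible`. -/
theorem irr_rhoE (E : WeierstrassCurve ℚ)
    (hirr : GaloisRepIsIrreducible (K := AlgebraicClosure ℚ) ℚ E p) : Irr (rhoE E p) := by
  intro U hU
  exact hirr.2 U fun σ x hx => hU σ x hx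

/-- translation of `X3` (`ZMod p`-module structure: `(m : ZMod p) • x = m • x`). -/
theorem frobRel_rhoE (h3 : X3) (W : WeierstrassCurve ℤ) (hΔ : W.Δ ≠ 0) :
    FrobRel (badSet W p) (fun ℓ => (W.apOfModel ℓ : ZMod p)) (rhoE (toQ W) p) := by
  have hp : p.Prime := Fact.out
  intro ℓ hℓ hS A hA τ hτ
  obtain ⟨h5, hne, hd⟩ := not_mem_badSet hΔ hℓ hS
  have hnd : ¬ ℓ ∣ p := fun h => hne ((Nat.prime_dvd_prime_iff_eq hℓ hp).1 h)
  refine LinearMap.ext fun x => ?_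
  have h := h3 W hΔ p ℓ hℓ h5 hd hnd A hA τ hτ x
  simp only [LinearMap.add_apply, LinearMap.sub_apply, Module.End.mul_apply, LinearMap.smul_apply,
    Module.End.one_apply, galoisRepModuleEnd_apply, LinearMap.zero_apply]
  rw [Int.cast_smul_eq_zsmul, Nat.cast_smul_eq_nsmul, ← natCast_zsmul]
  exact h

end Fermat.Agent.LP.Gal
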