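import Fermat.Agent.LP.Gal.ECDefs

/-!
# LP-GAL : `E[p]` has finite level
-/

set_option autoImplicit false

open WeierstrassCurve WeierstrassCurve.Affine WeierstrassCurve.Affine.Point

namespace Fermat.Agent.LP.Gal

open Fermat.Agent.GR.H (GQ FrobeniusDensity)

variable {p : ℕ} [Fact p.Prime]

/-- the first coordinate of a point (`0` at the origin). -/
def ECRepB_xc {K : Type*} [CommRing K] {W : Affine K} : W.Point → K
  | .zero => 0
  | .some x _ _ => x

/-- the second coordinate of a point (`0` at the origin). -/
def ECRepB_yc {K : Type*} [CommRing K] {W : Affine K} : W.Point → K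
  | .zero => 0
  | .some _ y _ => y

/-- PROOF. `L :=` the field generated by the coordinates of the finitely many points of `E[p]`. -/
theorem hasLevel_rhoE (E : WeierstrassCurve ℚ) (hfin : Finite (Tor E p)) :
    HasLevel (rhoE E p) := by
  classical
  let S : Set (AlgebraicClosure ℚ) :=
    Set.range (fun P : Tor E p => ECRepB_xc P.1) ∪ Set.range (fun P : Tor E p => ECRepB_yc P.1)
  have hS : S.Finite := (Set.finite_range _).union (Set.finite_range _)
  refine ⟨IntermediateField.adjoin ℚ S, ?_, ?_⟩
  · have : Finite S := hS.to_subtype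
    exact IntermediateField.finiteDimensional_adjoin fun x _ =>
      ((AlgebraicClosure.isAlgebraic ℚ).isAlgebraic x).isIntegral
  · intro σ hσ
    refine LinearMap.ext fun P => Subtype.ext ?_
    show σ • (P : (E⁄(AlgebraicClosure ℚ)).Point) = P
    have hx : σ (ECRepB_xc P.1) = ECRepB_xc P.1 :=
      hσ _ (IntermediateField.subset_adjoin ℚ S (Or.inl ⟨P, rfl⟩))
    have hy : σ (ECRepB_yc P.1) = ECRepB_yc P.1 :=
      hσ _ (IntermediateField.subset_adjoin ℚ S (Or.inr ⟨P, rfl⟩))
    rw [algEquiv_smul_def]
    generalize (P : (E⁄(AlgebraicClosure ℚ)).Point) = Q at hx hy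
    cases Q with
    | zero => rfl
    | some x y h =>
      rw [map_some]
      have hx' : σ x = x := hx
      have hy' : σ y = y := hy
      congr 1

end Fermat.Agent.LP.Gal
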