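import Fermat.Agent.LP.Gal.ECDefs

/-!
# LP-GAL : `E[p]` and changes of variables (from `X4`)
-/

set_option autoImplicit false

open WeierstrassCurve WeierstrassCurve.Affine WeierstrassCurve.Affine.Point

namespace Fermat.Agent.LP.Gal

open Fermat.Agent.GR.H (GQ FrobeniusDensity)

variable {p : ℕ} [Fact p.Prime]

/-- the isomorphism `E[p] ≃ E'[p]` induced by `X4`. -/
theorem exists_tor_equiv (h4 : X4) (E E' : WeierstrassCurve ℚ) (C : VariableChange ℚ)
    (hC : C • E = E') :
    ∃ e : Tor E p ≃ₗ[ZMod p] Tor E' p, ∀ (σ : GQ) (x : Tor E p), e (σ • x) = σ • e x := by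
  obtain ⟨e, he⟩ := h4 E E' C hC
  have hmem : ∀ x : Tor E p, e x.1 ∈ Submodule.torsionBy ℤ (E'⁄(AlgebraicClosure ℚ)).Point p := by
    intro x
    rw [Submodule.mem_torsionBy_iff, ← map_zsmul, (Submodule.mem_torsionBy_iff _ _).1 x.2, _root_.map_zero]
  have hmem' : ∀ y : Tor E' p,
      e.symm y.1 ∈ Submodule.torsionBy ℤ (E⁄(AlgebraicClosure ℚ)).Point p := by
    intro y
    rw [Submodule.mem_torsionBy_iff, ← map_zsmul, (Submodule.mem_torsionBy_iff _ _).1 y.2, _root_.map_zero]
  let f : Tor E p →+ Tor E' p :=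
    { toFun := fun x => ⟨e x.1, hmem x⟩
      map_zero' := Subtype.ext (_root_.map_zero e)
      map_add' := fun x y => Subtype.ext (map_add e x.1 y.1) }
  have hbij : Function.Bijective (AddMonoidHom.toZModLinearMap p f) := by
    constructor
    · intro x y hxy
      exact Subtype.ext (e.injective (congrArg Subtype.val hxy))
    · intro y
      exact ⟨⟨e.symm y.1, hmem' y⟩, Subtype.ext (e.apply_symm_apply y.1)⟩
  refine ⟨LinearEquiv.ofBijective (AddMonoidHom.toZModLinearMap p f) hbij, ?_⟩
  intro σ x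
  exact Subtype.ext (he σ x.1)

/-- irreducibility is invariant under a change of variables. -/
theorem irr_of_variableChange (h4 : X4) (E E' : WeierstrassCurve ℚ) (C : VariableChange ℚ)
    (hC : C • E = E') (hirr : GaloisRepIsIrreducible (K := AlgebraicClosure ℚ) ℚ E p) :
    GaloisRepIsIrreducible (K := AlgebraicClosure ℚ) ℚ E' p := by
  obtain ⟨e, he⟩ := exists_tor_equiv (p := p) h4 E E' C hC
  obtain ⟨hnt, hN⟩ := hirr
  refine ⟨e.injective.nontrivial, ?_⟩
  intro N' hN'
  have hst : IsGaloisStable ℚ (N'.comap e.toLinearMap) := by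
    intro σ x hx
    rw [Submodule.mem_comap] at hx ⊢
    have h1 : e.toLinearMap (σ • x) = σ • e.toLinearMap x := he σ x
    rw [h1]
    exact hN' σ _ hx
  have hmap : (N'.comap e.toLinearMap).map e.toLinearMap = N' :=
    Submodule.map_comap_eq_of_surjective e.surjective N'
  rcases hN _ hst with h | h
  · left
    rw [← hmap, h, Submodule.map_bot]
  · right
    rw [← hmap, h, Submodule.map_top]
    exact LinearMap.range_eq_top.2 e.surjective

end Fermat.Agent.LP.Gal
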