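import Fermat.Agent.LP.Gal.KModGal

/-!
# LP-GAL : restriction of a representation to a stable subspace; the eigenspace of `M_p(N)`
-/

set_option autoImplicit false
set_option linter.unusedSectionVars false

namespace Fermat.Agent.LP.Gal

open Fermat.Agent.GR Fermat.Agent.GR.H Fermat.Agent.GR.I

section restrict
variable {p : ℕ} [Fact p.Prime] {M : Type*} [AddCommGroup M] [Module (ZMod p) M]

theorem HasLevel.resRep {r : GQ →* Module.End (ZMod p) M} (h : HasLevel r)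
    (U : Submodule (ZMod p) M) (hU : ∀ g, ∀ x ∈ U, r g x ∈ U) : HasLevel (resRep r U hU) := by
  obtain ⟨L, hL, h⟩ := h
  refine ⟨L, hL, fun σ hσ => ?_⟩
  refine LinearMap.ext fun x => Subtype.ext ?_
  rw [coe_resRep, h σ hσ]
  rfl

end restrict

variable {N : ℕ} [NeZero N] (D : KummerData N) (p : ℕ) [Fact p.Prime]

/-- from `galHom_comm_T`. -/
theorem galHom_mem_eig (𝓛 : Set ℕ) (a : ℕ → ZMod p) (g : GQ) (y : KM D p)
    (hy : y ∈ eig D p 𝓛 a) : galHom D p g y ∈ eig D p 𝓛 a := by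
  rw [mem_eig] at hy ⊢
  intro ℓ hℓ hℓN hL
  have h := LinearMap.congr_fun (galHom_comm_T D p g hℓ hℓN) y
  rw [Module.End.mul_apply, Module.End.mul_apply] at h
  rw [← h, hy ℓ hℓ hℓN hL, map_smul]

/-- from `galHom_frob`: on a Galois stable subspace of the eigenspace the Frobenius elements
satisfy `τ² - a_ℓ τ + ℓ = 0`. -/
theorem frobRel_resRep (hcrux : CruxAll N) (𝓛 : Set ℕ) (a : ℕ → ZMod p) (S : Finset ℕ)
    (hS : ∀ ℓ : ℕ, ℓ.Prime → ℓ ∉ S → ℓ ∈ 𝓛 ∧ ¬ ℓ ∣ N ∧ ℓ ≠ p)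
    (U : Submodule (ZMod p) (KM D p)) (hU : ∀ g, ∀ x ∈ U, galHom D p g x ∈ U)
    (hUe : U ≤ eig D p 𝓛 a) : FrobRel S a (resRep (galHom D p) U hU) := by
  intro ℓ hℓ hℓS A hA τ hτ
  obtain ⟨hL, hℓN, hℓp⟩ := hS ℓ hℓ hℓS
  refine LinearMap.ext fun x => Subtype.ext ?_
  have h := LinearMap.congr_fun (galHom_frob D p hcrux hℓ hℓN hℓp A hA τ hτ) (x : KM D p)
  have hx : heckeEnd D p (HeckeFull.T hℓ hℓN) (galHom D p τ x) = a ℓ • galHom D p τ x :=
    (mem_eig D p).1 (hUe (hU τ x x.2)) ℓ hℓ hℓN hL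
  simp only [LinearMap.add_apply, LinearMap.sub_apply, LinearMap.smul_apply, Module.End.mul_apply,
    Module.End.one_apply, LinearMap.zero_apply] at h ⊢
  rw [hx] at h
  simpa using h

end Fermat.Agent.LP.Gal
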