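import Mathlib

/-!
# LP-GAL : a proper ideal containing `p` of a faithful Hecke algebra has a nonzero socle in `Λ / p Λ`
-/

set_option autoImplicit false

namespace Fermat.Agent.LP.Gal

/-- a finite module `Y` with `𝔫 Y ≠ Y` contains a nonzero element killed by `𝔫`. -/
theorem Nakayama_socle_aux {T Y : Type*} [CommRing T] [AddCommGroup Y] [Module T Y] [Finite Y]
    (𝔫 : Ideal T) (h : 𝔫 • (⊤ : Submodule T Y) ≠ ⊤) : ∃ y : Y, y ≠ 0 ∧ ∀ t ∈ 𝔫, t • y = 0 := by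
  classical
  have hfin : Module.Finite T Y := Module.Finite.of_finite
  have hnoeth : IsNoetherian T Y := isNoetherian_of_finite T Y
  have hart : IsArtinian T Y := isArtinian_of_finite
  let f : ℕ →o (Submodule T Y)ᵒᵈ :=
    { toFun := fun m => OrderDual.toDual (𝔫 ^ m • (⊤ : Submodule T Y))
      monotone' := by
        intro a b hab
        exact Submodule.smul_mono_left (Ideal.pow_le_pow_right hab) }
  obtain ⟨m, hm⟩ := IsArtinian.monotone_stabilizes f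
  have hm1 : 𝔫 ^ m • (⊤ : Submodule T Y) = 𝔫 ^ (m + 1) • (⊤ : Submodule T Y) :=
    hm (m + 1) (Nat.le_succ m)
  have hle : 𝔫 ^ m • (⊤ : Submodule T Y) ≤ 𝔫 • (𝔫 ^ m • (⊤ : Submodule T Y)) := by
    rw [← Submodule.mul_smul, ← pow_succ', ← hm1]
  obtain ⟨r, hr1, hr⟩ := Submodule.exists_sub_one_mem_and_smul_eq_zero_of_fg_of_le_smul 𝔫
    (𝔫 ^ m • (⊤ : Submodule T Y)) (IsNoetherian.noetherian _) hle
  obtain ⟨y0, hy0⟩ : ∃ y0 : Y, r • y0 ≠ 0 := by
    by_contra hcon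
    push Not at hcon
    apply h
    rw [eq_top_iff]
    intro y _
    have e : y = (-(r - 1)) • y := by
      rw [neg_smul, sub_smul, hcon y, one_smul, zero_sub, neg_neg]
    rw [e]
    exact Submodule.smul_mem_smul (𝔫.neg_mem hr1) Submodule.mem_top
  have hex : ∃ j : ℕ, ∀ s ∈ 𝔫 ^ j, s • (r • y0) = 0 := by
    refine ⟨m, fun s hs => ?_⟩
    rw [smul_comm]
    exact hr _ (Submodule.smul_mem_smul hs Submodule.mem_top)
  have hj := Nat.find_spec hex
  have hj0 : Nat.find hex ≠ 0 := by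
    intro h0
    rw [h0] at hj
    apply hy0
    have := hj 1 (by rw [pow_zero, Ideal.one_eq_top]; trivial)
    rwa [one_smul] at this
  obtain ⟨j, hjj⟩ := Nat.exists_eq_succ_of_ne_zero hj0
  have hmin := Nat.find_min hex (m := j) (by rw [hjj]; exact Nat.lt_succ_self j)
  push Not at hmin
  obtain ⟨s, hs, hsy⟩ := hmin
  refine ⟨s • (r • y0), hsy, fun t ht => ?_⟩
  rw [← mul_smul]
  apply hj
  rw [hjj, Nat.succ_eq_add_one, pow_succ']
  exact Ideal.mul_mem_mul ht hs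

/-- PROOF. Make `Λ` a `T`-module through `hecke` (`Module.compHom`); it is finitely generated.
`Y := Λ / pΛ` is finite.  (i) `𝔫 Y ≠ Y`: otherwise `Λ = 𝔫 Λ` (`p ∈ 𝔫`), Nakayama
(`Submodule.exists_sub_one_mem_and_smul_eq_zero_of_fg_of_le_smul`) gives `r ∈ 1 + 𝔫` killing `Λ`,
so `r = 0` by faithfulness and `1 ∈ 𝔫`.  (ii) the chain `𝔫^m Y` is stationary (finite):
`𝔫 Y' = Y'` for `Y' = 𝔫^m Y`, Nakayama: `r ∈ 1 + 𝔫` with `r Y' = 0`.  `Y'' := r Y ≠ 0` (else
`Y = (1 - r) Y ⊆ 𝔫 Y`) and `𝔫^m Y'' = 0`.  Take `j` minimal with `𝔫^j Y'' = 0`: any nonzero element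
of `𝔫^(j-1) Y''` is killed by `𝔫`. -/
theorem exists_socle {T Λ : Type*} [CommRing T] [AddCommGroup Λ] [Module.Finite ℤ Λ]
    (hecke : T →+* Module.End ℤ Λ) (hinj : Function.Injective hecke) (𝔫 : Ideal T) (h𝔫 : 𝔫 ≠ ⊤)
    (p : ℕ) (hp0 : 0 < p) (hp : (p : T) ∈ 𝔫) :
    ∃ x : Λ, (¬ ∃ y, x = (p : ℤ) • y) ∧ ∀ t ∈ 𝔫, ∃ y, hecke t x = (p : ℤ) • y := by
  classical
  let _ : Module T Λ := Module.compHom Λ hecke
  have hsm : ∀ (t : T) (x : Λ), t • x = hecke t x := fun _ _ => rfl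
  have hfinT : Module.Finite T Λ := Module.Finite.of_restrictScalars_finite ℤ T Λ
  let P : Submodule T Λ :=
    { carrier := {x | ∃ y, x = (p : ℤ) • y}
      add_mem' := by
        rintro _ _ ⟨a, rfl⟩ ⟨b, rfl⟩
        exact ⟨a + b, (smul_add _ _ _).symm⟩
      zero_mem' := ⟨0, (smul_zero _).symm⟩
      smul_mem' := by
        rintro t _ ⟨a, rfl⟩
        exact ⟨t • a, by rw [hsm, hsm, map_smul]⟩ }
  have hP : ∀ x : Λ, x ∈ P ↔ ∃ y, x = (p : ℤ) • y := fun _ => Iff.rfl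
  have hpsm : ∀ y : Λ, (p : T) • y = (p : ℤ) • y := by
    intro y
    rw [hsm, map_natCast, Module.End.natCast_apply, natCast_zsmul]
  have hfinY : Finite (Λ ⧸ P) := by
    have h1 : Module.Finite ℤ (Λ ⧸ P) :=
      Module.Finite.of_surjective (P.mkQ.toAddMonoidHom.toIntLinearMap)
        (Submodule.mkQ_surjective P)
    apply Module.finite_of_fg_torsion
    intro y
    obtain ⟨x, rfl⟩ := Submodule.mkQ_surjective P y
    refine ⟨⟨(p : ℤ), mem_nonZeroDivisors_of_ne_zero (by exact_mod_cast hp0.ne')⟩, ?_⟩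
    change (p : ℤ) • P.mkQ x = 0
    rw [← map_zsmul, Submodule.mkQ_apply, Submodule.Quotient.mk_eq_zero]
    exact ⟨x, rfl⟩
  have hne : 𝔫 • (⊤ : Submodule T (Λ ⧸ P)) ≠ ⊤ := by
    intro htop
    have hle : (⊤ : Submodule T Λ) ≤ 𝔫 • (⊤ : Submodule T Λ) := by
      intro x _
      have h1 : P.mkQ x ∈ 𝔫 • (⊤ : Submodule T (Λ ⧸ P)) := by rw [htop]; exact Submodule.mem_top
      rw [← Submodule.range_mkQ P, ← Submodule.map_top, ← Submodule.map_smul''] at h1
      obtain ⟨x', hx', hxx⟩ := h1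
      have h2 : x - x' ∈ P := by
        rw [← Submodule.Quotient.mk_eq_zero, Submodule.Quotient.mk_sub, sub_eq_zero]
        exact hxx.symm
      obtain ⟨y, hy⟩ := h2
      have e : x = x' + (p : T) • y := by rw [hpsm, ← hy]; abel
      rw [e]
      exact add_mem hx' (Submodule.smul_mem_smul hp Submodule.mem_top)
    obtain ⟨r, hr1, hr⟩ := Submodule.exists_sub_one_mem_and_smul_eq_zero_of_fg_of_le_smul 𝔫
      (⊤ : Submodule T Λ) hfinT.fg_top hle
    have hr0 : r = 0 := by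
      apply hinj
      rw [map_zero]
      ext x
      exact hr x Submodule.mem_top
    apply h𝔫
    rw [Ideal.eq_top_iff_one]
    have := 𝔫.neg_mem hr1
    rwa [hr0, zero_sub, neg_neg] at this
  obtain ⟨y, hy0, hy⟩ := Nakayama_socle_aux 𝔫 hne
  obtain ⟨x, rfl⟩ := Submodule.mkQ_surjective P y
  refine ⟨x, fun hx => hy0 ?_, fun t ht => ?_⟩
  · rw [Submodule.mkQ_apply, Submodule.Quotient.mk_eq_zero]
    exact hx
  · have h1 := hy t ht
    rw [← map_smul, Submodule.mkQ_apply, Submodule.Quotient.mk_eq_zero] at h1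
    exact h1

end Fermat.Agent.LP.Gal
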