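import Fermat.Agent.GR.H.EigenCharA
import Fermat.Agent.LP.Gal.Nakayama
import Fermat.Agent.LP.Gal.Eig

/-!
# LP-GAL : a mod `𝔪` eigenform gives a nonzero eigenclass in `M_p(N)`
-/

set_option autoImplicit false

namespace Fermat.Agent.LP.Gal

open Fermat.Agent.GR Fermat.Agent.GR.H Fermat.Agent.GR.I

/-- PROOF. `χ` from `GR.H.exists_eigenchar hf ∅`; `𝔫 := 𝔪.comap χ`. -/
theorem exists_ideal {N : ℕ} [NeZero N] (f : CuspForm (CongruenceSubgroup.Gamma0 N) 2)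
    (hf : f.IsNormalizedEigenform) (𝔪 : Ideal (integralClosure ℤ ℂ)) (h𝔪 : 𝔪.IsMaximal) (p : ℕ)
    (hp : (p : integralClosure ℤ ℂ) ∈ 𝔪) :
    ∃ 𝔫 : Ideal (HeckeFull N), 𝔫 ≠ ⊤ ∧ (p : HeckeFull N) ∈ 𝔫 ∧
      ∀ (ℓ : ℕ) (hℓ : ℓ.Prime) (hℓN : ¬ ℓ ∣ N) (a : integralClosure ℤ ℂ) (b : ℤ),
        (a : ℂ) = ModularFormClass.qCoeff f ℓ → a - (b : integralClosure ℤ ℂ) ∈ 𝔪 →
          HeckeFull.T hℓ hℓN - (b : HeckeFull N) ∈ 𝔫 := by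
  obtain ⟨χ, -, hχ⟩ := exists_eigenchar hf (∅ : Set ℕ)
  refine ⟨𝔪.comap χ, Ideal.comap_ne_top χ h𝔪.ne_top, ?_, ?_⟩
  · rw [Ideal.mem_comap, map_natCast]
    exact hp
  · intro ℓ hℓ hℓN a b ha hab
    rw [Ideal.mem_comap, map_sub, map_intCast]
    have h1 : χ (HeckeFull.T hℓ hℓN) = a := by
      apply Subtype.ext
      rw [ha]
      exact hχ ℓ hℓ hℓN (Set.notMem_empty ℓ)
    rw [h1]
    exact hab

/-- PROOF. `exists_ideal`, `exists_socle` for `D.hecke`; `y := KM.mk x`; `KM.mk_eq_zero_iff`,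
`heckeEnd_mk`. -/
theorem eig_ne_bot {N : ℕ} [NeZero N] (D : KummerData N) (hinj : Function.Injective D.hecke)
    (p : ℕ) [Fact p.Prime] (f : CuspForm (CongruenceSubgroup.Gamma0 N) 2)
    (hf : f.IsNormalizedEigenform) (𝔪 : Ideal (integralClosure ℤ ℂ)) (h𝔪 : 𝔪.IsMaximal)
    (hp : (p : integralClosure ℤ ℂ) ∈ 𝔪) (𝓛 : Set ℕ) (b : ℕ → ℤ)
    (hb : ∀ ℓ : ℕ, ℓ.Prime → ¬ ℓ ∣ N → ℓ ∈ 𝓛 → ∃ a : integralClosure ℤ ℂ,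
      (a : ℂ) = ModularFormClass.qCoeff f ℓ ∧ a - (b ℓ : integralClosure ℤ ℂ) ∈ 𝔪) :
    eig D p 𝓛 (fun ℓ => (b ℓ : ZMod p)) ≠ ⊥ := by
  obtain ⟨𝔫, h𝔫, hp𝔫, hT⟩ := exists_ideal f hf 𝔪 h𝔪 p hp
  obtain ⟨x, hx, hxt⟩ := exists_socle D.hecke hinj 𝔫 h𝔫 p (Fact.out : p.Prime).pos hp𝔫
  intro hbot
  have hmem : KM.mk D p x ∈ eig D p 𝓛 (fun ℓ => (b ℓ : ZMod p)) := by
    rw [mem_eig]
    intro ℓ hℓ hℓN hL
    obtain ⟨a, ha, hab⟩ := hb ℓ hℓ hℓN hL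
    obtain ⟨z, hz⟩ := hxt _ (hT ℓ hℓ hℓN a (b ℓ) ha hab)
    rw [heckeEnd_mk]
    have h1 : D.hecke (HeckeFull.T hℓ hℓN) x = b ℓ • x + (p : ℤ) • z := by
      rw [← hz, map_sub, map_intCast, LinearMap.sub_apply, Module.End.intCast_apply]
      abel
    have h2 : KM.mk D p ((p : ℤ) • z) = 0 := (KM.mk_eq_zero_iff D p _).mpr ⟨z, rfl⟩
    rw [h1, map_add, h2, add_zero, map_zsmul]
    exact (Int.cast_smul_eq_zsmul (ZMod p) (b ℓ) (KM.mk D p x)).symm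
  rw [hbot, Submodule.mem_bot, KM.mk_eq_zero_iff] at hmem
  exact hx hmem

end Fermat.Agent.LP.Gal
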