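import Fermat.Agent.LP.Gal.MainFun
import Fermat.Agent.LP.Gal.ECRepC

/-!
# LP-GAL : the same statements for a curve `E / ℚ` and an arbitrary integral model `W` of `E`
(this is the situation of `FreyPackage.ModularRepOfLevel`: `E = P.freyCurve`)

All proofs: transport along `exists_tor_equiv` / `irr_of_variableChange` (`X4`).
-/

set_option autoImplicit false

open WeierstrassCurve WeierstrassCurve.Affine WeierstrassCurve.Affine.Point

namespace Fermat.Agent.LP.Gal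

open Fermat.Agent.GR Fermat.Agent.GR.H Fermat.Agent.GR.I

variable {p : ℕ} [Fact p.Prime] {N : ℕ} [NeZero N]

/-- `Δ(C • E) = u⁻¹² Δ(E)`. -/
theorem delta_ne_zero_of_model (E : WeierstrassCurve ℚ) (hE : E.Δ ≠ 0) (W : WeierstrassCurve ℤ)
    (hW : W.IsIntegralModelOf E) : W.Δ ≠ 0 := by
  obtain ⟨C, hC⟩ := hW
  intro h0
  have h1 := congrArg WeierstrassCurve.Δ hC
  rw [WeierstrassCurve.variableChange_Δ, WeierstrassCurve.map_Δ, h0, _root_.map_zero] at h1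
  rcases mul_eq_zero.1 h1 with h | h
  · exact (pow_ne_zero 12 (Units.ne_zero C.u⁻¹)) h
  · exact hE h

theorem modRepIsIrreducible_of_model (h4 : X4) (E : WeierstrassCurve ℚ)
    (hirr : GaloisRepIsIrreducible (K := AlgebraicClosure ℚ) ℚ E p) (W : WeierstrassCurve ℤ)
    (hW : W.IsIntegralModelOf E) : W.ModRepIsIrreducible p := by
  obtain ⟨C, hC⟩ := hW
  exact irr_of_variableChange h4 E _ C hC hirr

theorem exists_embedding_KM_model (dens : FrobeniusDensity) (h1 : X1) (h3 : X3) (h4 : X4)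
    (hp2 : p ≠ 2) (E : WeierstrassCurve ℚ)
    (hirr : GaloisRepIsIrreducible (K := AlgebraicClosure ℚ) ℚ E p)
    (W : WeierstrassCurve ℤ) (hΔ : W.Δ ≠ 0) (hW : W.IsIntegralModelOf E)
    (D : KummerData N) (hcrux : CruxAll N) (U : Submodule (ZMod p) (KM D p)) (hU0 : U ≠ ⊥)
    (hU : ∀ g, ∀ x ∈ U, galHom D p g x ∈ U) (hUe : U ≤ eigW D W p) :
    ∃ φ : Tor E p →ₗ[ZMod p] KM D p, Function.Injective φ ∧ (∀ x, φ x ∈ U) ∧
      ∀ (σ : GQ) (x : Tor E p), φ (σ • x) = galHom D p σ (φ x) := by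
  have hirr' := modRepIsIrreducible_of_model h4 E hirr W hW
  obtain ⟨C, hC⟩ := hW
  obtain ⟨e, he⟩ := exists_tor_equiv (p := p) h4 E (toQ W) C hC
  obtain ⟨φ, hφ1, hφ2, hφ3⟩ := exists_embedding_KM dens h1 h3 hp2 W hΔ hirr' D hcrux U hU0 hU hUe
  refine ⟨φ ∘ₗ e.toLinearMap, hφ1.comp e.injective, fun x => hφ2 _, fun σ x => ?_⟩
  show φ (e (σ • x)) = galHom D p σ (φ (e x))
  rw [he, hφ3]

theorem exists_embedding_KM_involution_model (dens : FrobeniusDensity) (h1 : X1) (h3 : X3)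
    (h4 : X4) (hp2 : p ≠ 2) (E : WeierstrassCurve ℚ)
    (hirr : GaloisRepIsIrreducible (K := AlgebraicClosure ℚ) ℚ E p)
    (W : WeierstrassCurve ℤ) (hΔ : W.Δ ≠ 0) (hW : W.IsIntegralModelOf E)
    (D : KummerData N) (hcrux : CruxAll N) (U : Submodule (ZMod p) (KM D p)) (hU0 : U ≠ ⊥)
    (hU : ∀ g, ∀ x ∈ U, galHom D p g x ∈ U) (hUe : U ≤ eigW D W p)
    (w : Module.End (ZMod p) (KM D p)) (hwU : ∀ x ∈ U, w x ∈ U) (hww : ∀ x ∈ U, w (w x) = x)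
    (hwg : ∀ g, ∀ x ∈ U, w (galHom D p g x) = galHom D p g (w x)) :
    ∃ (φ : Tor E p →ₗ[ZMod p] KM D p) (s : ZMod p), (s = 1 ∨ s = -1) ∧
      Function.Injective φ ∧ (∀ x, φ x ∈ U) ∧
      (∀ (σ : GQ) (x : Tor E p), φ (σ • x) = galHom D p σ (φ x)) ∧
      ∀ x, w (φ x) = s • φ x := by
  have hirr' := modRepIsIrreducible_of_model h4 E hirr W hW
  obtain ⟨C, hC⟩ := hW
  obtain ⟨e, he⟩ := exists_tor_equiv (p := p) h4 E (toQ W) C hC
  obtain ⟨φ, s, hs, hφ1, hφ2, hφ3, hφ4⟩ := exists_embedding_KM_involution dens h1 h3 hp2 W hΔ hirr'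
    D hcrux U hU0 hU hUe w hwU hww hwg
  refine ⟨φ ∘ₗ e.toLinearMap, s, hs, hφ1.comp e.injective, fun x => hφ2 _, fun σ x => ?_,
    fun x => hφ4 _⟩
  show φ (e (σ • x)) = galHom D p σ (φ (e x))
  rw [he, hφ3]

/-- the eigenspace attached to `hmod : P.ModularRepOfLevel N` (unfolded) is nonzero. -/
theorem eigW_ne_bot_of_eigenform (D : KummerData N) (hinj : Function.Injective D.hecke)
    (W : WeierstrassCurve ℤ) (f : CuspForm (CongruenceSubgroup.Gamma0 N) 2)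
    (𝔪 : Ideal (integralClosure ℤ ℂ)) (hf : f.IsNormalizedEigenform) (h𝔪 : 𝔪.IsMaximal)
    (hp : (p : integralClosure ℤ ℂ) ∈ 𝔪)
    (hcong : ∀ ℓ : ℕ, ℓ.Prime → W.IsGoodPrimeFor ℓ → ¬ ℓ ∣ N → ℓ ≠ p →
      ∃ a : integralClosure ℤ ℂ, (a : ℂ) = ModularFormClass.qCoeff f ℓ ∧
        a - ((W.apOfModel ℓ : ℤ) : integralClosure ℤ ℂ) ∈ 𝔪) : eigW D W p ≠ ⊥ := by
  exact eigW_ne_bot D hinj W ⟨f, 𝔪, hf, h𝔪, hp, hcong⟩

theorem exists_kummer_embedding_model (dens : FrobeniusDensity) (h1 : X1) (h3 : X3) (h4 : X4)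
    (hp2 : p ≠ 2) (E : WeierstrassCurve ℚ)
    (hirr : GaloisRepIsIrreducible (K := AlgebraicClosure ℚ) ℚ E p)
    (W : WeierstrassCurve ℤ) (hΔ : W.Δ ≠ 0) (hW : W.IsIntegralModelOf E)
    (D : KummerData N) (hinj : Function.Injective D.hecke) (hcrux : CruxAll N)
    (hmod : W.IsResiduallyModularOfLevel p N) :
    ∃ Φ : Tor E p → LaurentSeries Qbar,
      (∀ x, IsKummer (N := N) p (Φ x)) ∧
      (∀ x y, KummerEquiv N p (Φ (x + y)) (Φ x * Φ y)) ∧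
      (∀ (σ : GQ) x, KummerEquiv N p (Φ (σ • x)) (gal σ (Φ x))) ∧
      (∀ x, KummerEquiv N p 1 (Φ x) → x = 0) ∧
      ∀ (ℓ : ℕ) [NeZero ℓ] (ζ : Qbarˣ), ℓ.Prime → ¬ ℓ ∣ N → W.IsGoodPrimeFor ℓ → ℓ ≠ p →
        IsPrimitiveRoot ζ ℓ → ∀ (e : ℕ), (e : ZMod p) = (W.apOfModel ℓ : ZMod p) →
          ∀ x, KummerEquiv N p (heckeMulT ℓ ζ (Φ x)) (Φ x ^ e) := by
  have hirr' := modRepIsIrreducible_of_model h4 E hirr W hW
  obtain ⟨C, hC⟩ := hW
  obtain ⟨e, he⟩ := exists_tor_equiv (p := p) h4 E (toQ W) C hC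
  obtain ⟨Φ, h1', h2', h3', h4', h5'⟩ :=
    exists_kummer_embedding dens h1 h3 hp2 W hΔ hirr' D hinj hcrux hmod
  refine ⟨fun x => Φ (e x), fun x => h1' _, fun x y => ?_, fun σ x => ?_, fun x hx => ?_,
    fun ℓ _ ζ hℓ hℓN hg hℓp hζ k hk x => h5' ℓ ζ hℓ hℓN hg hℓp hζ k hk _⟩
  · show KummerEquiv N p (Φ (e (x + y))) (Φ (e x) * Φ (e y))
    rw [map_add]
    exact h2' _ _
  · show KummerEquiv N p (Φ (e (σ • x))) (gal σ (Φ (e x)))
    rw [he]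
    exact h3' σ _
  · exact e.map_eq_zero_iff.1 (h4' _ hx)

end Fermat.Agent.LP.Gal
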