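import Fermat.Agent.LP.Gal.ECRepA
import Fermat.Agent.LP.Gal.ECRepB
import Fermat.Agent.LP.Gal.DensityB

/-!
# LP-GAL : trace and determinant of Frobenius on `E[p]` (exports for LP-EIS, S41, S58)
-/

set_option autoImplicit false

open WeierstrassCurve WeierstrassCurve.Affine WeierstrassCurve.Affine.Point

namespace Fermat.Agent.LP.Gal

open Fermat.Agent.GR.H (GQ FrobeniusDensity)

variable {p : ℕ} [Fact p.Prime]

theorem Trace_finite_tor (h1 : X1) (W : WeierstrassCurve ℤ) (hΔ : W.Δ ≠ 0) :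
    Finite (Tor (toQ W) p) := by
  apply Nat.finite_of_card_ne_zero
  rw [h1 W hΔ p (Fact.out : p.Prime).pos]
  exact pow_ne_zero _ (Fact.out : p.Prime).ne_zero

omit [Fact p.Prime] in
theorem Trace_not_mem_badSet (W : WeierstrassCurve ℤ) {ℓ : ℕ} (hℓ5 : 5 ≤ ℓ) (hℓp : ℓ ≠ p)
    (hℓΔ : ¬ (ℓ : ℤ) ∣ W.Δ) : ℓ ∉ badSet W p := by
  unfold badSet
  simp only [Finset.mem_insert, not_or]
  refine ⟨by omega, by omega, hℓp, fun h => hℓΔ ?_⟩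
  exact Int.natCast_dvd.mpr (Nat.dvd_of_mem_primeFactors h)

/-- (T) -/
theorem trace_det_frobenius_tor (dens : FrobeniusDensity) (h1 : X1) (h3 : X3)
    (W : WeierstrassCurve ℤ) (hΔ : W.Δ ≠ 0) (hirr : W.ModRepIsIrreducible p) {ℓ : ℕ}
    (hℓ : ℓ.Prime) (hℓ5 : 5 ≤ ℓ) (hℓp : ℓ ≠ p) (hℓΔ : ¬ (ℓ : ℤ) ∣ W.Δ)
    (A : ValuationSubring (AlgebraicClosure ℚ)) (hA : A.LiesOverPrime ℓ) (τ : GQ)
    (hτ : A.IsFrobeniusAt τ ℓ) :
    LinearMap.trace (ZMod p) (Tor (toQ W) p) (rhoE (toQ W) p τ) = (W.apOfModel ℓ : ZMod p) ∧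
      LinearMap.det (rhoE (toQ W) p τ) = (ℓ : ZMod p) := by
  have hfin := finite_tor (p := p) h1 W hΔ
  exact trace_det_frobenius dens (finrank_tor h1 W hΔ) (rhoE (toQ W) p) (irr_rhoE _ hirr)
    (hasLevel_rhoE _ (Trace_finite_tor h1 W hΔ)) (badSet W p) (mem_badSet_self W p)
    (fun ℓ => (W.apOfModel ℓ : ZMod p)) (frobRel_rhoE h3 W hΔ) hℓ
    (Trace_not_mem_badSet W hℓ5 hℓp hℓΔ) A hA τ hτ

/-- (T') -/
theorem det_tor_eq_cyclotomic (dens : FrobeniusDensity) (h1 : X1) (h3 : X3)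
    (W : WeierstrassCurve ℤ) (hΔ : W.Δ ≠ 0) (hirr : W.ModRepIsIrreducible p)
    (ζ : AlgebraicClosure ℚ) (hζ : IsPrimitiveRoot ζ p) (g : GQ) (e : ℕ) (hg : g ζ = ζ ^ e) :
    LinearMap.det (rhoE (toQ W) p g) = (e : ZMod p) := by
  have hfin := finite_tor (p := p) h1 W hΔ
  exact det_eq_cyclotomic dens (finrank_tor h1 W hΔ) (rhoE (toQ W) p) (irr_rhoE _ hirr)
    (hasLevel_rhoE _ (Trace_finite_tor h1 W hΔ)) (badSet W p) (mem_badSet_self W p)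
    (fun ℓ => (W.apOfModel ℓ : ZMod p)) (frobRel_rhoE h3 W hΔ) ζ hζ g e hg

/-- (T'') -/
theorem exists_frob_pow_tor (dens : FrobeniusDensity) (h1 : X1) (W : WeierstrassCurve ℤ)
    (hΔ : W.Δ ≠ 0) (S : Finset ℕ) (g : GQ) :
    ∃ (ℓ : ℕ) (A : ValuationSubring (AlgebraicClosure ℚ)) (τ : GQ) (j : ℕ),
      ℓ.Prime ∧ ℓ ∉ S ∧ A.LiesOverPrime ℓ ∧ A.IsFrobeniusAt τ ℓ ∧
        rhoE (toQ W) p g = rhoE (toQ W) p τ ^ j := by
  have hlev := hasLevel_rhoE (p := p) (toQ W) (Trace_finite_tor h1 W hΔ)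
  obtain ⟨ℓ, A, τ, j, -, h1', h2, h3, h4, h5, -, -, -⟩ :=
    exists_frob_pow dens (rhoE (toQ W) p) (rhoE (toQ W) p) hlev hlev S 0 g
  exact ⟨ℓ, A, τ, j, h1', h2, h3, h4, h5⟩

end Fermat.Agent.LP.Gal
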