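import Fermat.Agent.LP.Gal.Inst
import Fermat.Agent.LP.Gal.Model
import Fermat.Agent.LP.Gal.Trace

/-!
# LP-GAL : the exports of the module, unconditionally

`KD N := kummerData N`, `M_p(N) := KM (kummerData N) p`.  `E / ℚ` any Weierstrass curve with
irreducible `E[p]`, `W` any integral model of `E` with `Δ(W) ≠ 0`.
-/

set_option autoImplicit false

open WeierstrassCurve WeierstrassCurve.Affine WeierstrassCurve.Affine.Point

namespace Fermat.Agent.LP.Gal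

open Fermat.Agent.GR Fermat.Agent.GR.H Fermat.Agent.GR.I

variable {p : ℕ} [Fact p.Prime] {N : ℕ} [NeZero N]

/-- `E[p]` embeds equivariantly in every nonzero Galois stable subspace of `M_p(N)[λ_W]`. -/
theorem final_embedding (hp2 : p ≠ 2) (E : WeierstrassCurve ℚ)
    (hirr : GaloisRepIsIrreducible (K := AlgebraicClosure ℚ) ℚ E p)
    (W : WeierstrassCurve ℤ) (hΔ : W.Δ ≠ 0) (hW : W.IsIntegralModelOf E)
    (U : Submodule (ZMod p) (KM (kummerData N) p)) (hU0 : U ≠ ⊥)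
    (hU : ∀ g, ∀ x ∈ U, galHom (kummerData N) p g x ∈ U) (hUe : U ≤ eigW (kummerData N) W p) :
    ∃ φ : Tor E p →ₗ[ZMod p] KM (kummerData N) p, Function.Injective φ ∧ (∀ x, φ x ∈ U) ∧
      ∀ (σ : GQ) (x : Tor E p), φ (σ • x) = galHom (kummerData N) p σ (φ x) :=
  exists_embedding_KM_model frobeniusDensity x1 x3 x4 hp2 E hirr W hΔ hW (kummerData N)
    (cruxAll N) U hU0 hU hUe

/-- the same with an involution `w` of `U` commuting with Galois: `w` acts on the image by a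
sign. -/
theorem final_embedding_involution (hp2 : p ≠ 2) (E : WeierstrassCurve ℚ)
    (hirr : GaloisRepIsIrreducible (K := AlgebraicClosure ℚ) ℚ E p)
    (W : WeierstrassCurve ℤ) (hΔ : W.Δ ≠ 0) (hW : W.IsIntegralModelOf E)
    (U : Submodule (ZMod p) (KM (kummerData N) p)) (hU0 : U ≠ ⊥)
    (hU : ∀ g, ∀ x ∈ U, galHom (kummerData N) p g x ∈ U) (hUe : U ≤ eigW (kummerData N) W p)
    (w : Module.End (ZMod p) (KM (kummerData N) p)) (hwU : ∀ x ∈ U, w x ∈ U)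
    (hww : ∀ x ∈ U, w (w x) = x)
    (hwg : ∀ g, ∀ x ∈ U, w (galHom (kummerData N) p g x) = galHom (kummerData N) p g (w x)) :
    ∃ (φ : Tor E p →ₗ[ZMod p] KM (kummerData N) p) (s : ZMod p), (s = 1 ∨ s = -1) ∧
      Function.Injective φ ∧ (∀ x, φ x ∈ U) ∧
      (∀ (σ : GQ) (x : Tor E p), φ (σ • x) = galHom (kummerData N) p σ (φ x)) ∧
      ∀ x, w (φ x) = s • φ x :=
  exists_embedding_KM_involution_model frobeniusDensity x1 x3 x4 hp2 E hirr W hΔ hW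
    (kummerData N) (cruxAll N) U hU0 hU hUe w hwU hww hwg

/-- the eigenspace attached to a mod `𝔪` eigenform is nonzero. -/
theorem final_eigW_ne_bot (W : WeierstrassCurve ℤ)
    (f : CuspForm (CongruenceSubgroup.Gamma0 N) 2)
    (𝔪 : Ideal (integralClosure ℤ ℂ)) (hf : f.IsNormalizedEigenform) (h𝔪 : 𝔪.IsMaximal)
    (hp : (p : integralClosure ℤ ℂ) ∈ 𝔪)
    (hcong : ∀ ℓ : ℕ, ℓ.Prime → W.IsGoodPrimeFor ℓ → ¬ ℓ ∣ N → ℓ ≠ p →
      ∃ a : integralClosure ℤ ℂ, (a : ℂ) = ModularFormClass.qCoeff f ℓ ∧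
        a - ((W.apOfModel ℓ : ℤ) : integralClosure ℤ ℂ) ∈ 𝔪) :
    eigW (kummerData N) W p ≠ ⊥ :=
  eigW_ne_bot_of_eigenform (kummerData N) (kummerData_hecke_injective N) W f 𝔪 hf h𝔪 hp hcong

/-- function form. -/
theorem final_kummer_embedding (hp2 : p ≠ 2) (E : WeierstrassCurve ℚ)
    (hirr : GaloisRepIsIrreducible (K := AlgebraicClosure ℚ) ℚ E p)
    (W : WeierstrassCurve ℤ) (hΔ : W.Δ ≠ 0) (hW : W.IsIntegralModelOf E)
    (hmod : W.IsResiduallyModularOfLevel p N) :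
    ∃ Φ : Tor E p → LaurentSeries Qbar,
      (∀ x, IsKummer (N := N) p (Φ x)) ∧
      (∀ x y, KummerEquiv N p (Φ (x + y)) (Φ x * Φ y)) ∧
      (∀ (σ : GQ) x, KummerEquiv N p (Φ (σ • x)) (gal σ (Φ x))) ∧
      (∀ x, KummerEquiv N p 1 (Φ x) → x = 0) ∧
      ∀ (ℓ : ℕ) [NeZero ℓ] (ζ : Qbarˣ), ℓ.Prime → ¬ ℓ ∣ N → W.IsGoodPrimeFor ℓ → ℓ ≠ p →
        IsPrimitiveRoot ζ ℓ → ∀ (e : ℕ), (e : ZMod p) = (W.apOfModel ℓ : ZMod p) →
          ∀ x, KummerEquiv N p (heckeMulT ℓ ζ (Φ x)) (Φ x ^ e) :=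
  exists_kummer_embedding_model frobeniusDensity x1 x3 x4 hp2 E hirr W hΔ hW (kummerData N)
    (kummerData_hecke_injective N) (cruxAll N) hmod

/-- trace and determinant of Frobenius on `E[p]` (`E[p]` irreducible). -/
theorem final_trace_det_frobenius (W : WeierstrassCurve ℤ) (hΔ : W.Δ ≠ 0)
    (hirr : W.ModRepIsIrreducible p) {ℓ : ℕ}
    (hℓ : ℓ.Prime) (hℓ5 : 5 ≤ ℓ) (hℓp : ℓ ≠ p) (hℓΔ : ¬ (ℓ : ℤ) ∣ W.Δ)
    (A : ValuationSubring (AlgebraicClosure ℚ)) (hA : A.LiesOverPrime ℓ) (τ : GQ)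
    (hτ : A.IsFrobeniusAt τ ℓ) :
    LinearMap.trace (ZMod p) (Tor (toQ W) p) (rhoE (toQ W) p τ) = (W.apOfModel ℓ : ZMod p) ∧
      LinearMap.det (rhoE (toQ W) p τ) = (ℓ : ZMod p) :=
  trace_det_frobenius_tor frobeniusDensity x1 x3 W hΔ hirr hℓ hℓ5 hℓp hℓΔ A hA τ hτ

/-- `det E[p]` is the mod `p` cyclotomic character (`E[p]` irreducible). -/
theorem final_det_eq_cyclotomic (W : WeierstrassCurve ℤ) (hΔ : W.Δ ≠ 0)
    (hirr : W.ModRepIsIrreducible p)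
    (ζ : AlgebraicClosure ℚ) (hζ : IsPrimitiveRoot ζ p) (g : GQ) (e : ℕ) (hg : g ζ = ζ ^ e) :
    LinearMap.det (rhoE (toQ W) p g) = (e : ZMod p) :=
  det_tor_eq_cyclotomic frobeniusDensity x1 x3 W hΔ hirr ζ hζ g e hg

/-- every element of `G_ℚ` acts on `E[p]` as a power of a Frobenius element outside `S`. -/
theorem final_exists_frob_pow (W : WeierstrassCurve ℤ) (hΔ : W.Δ ≠ 0) (S : Finset ℕ) (g : GQ) :
    ∃ (ℓ : ℕ) (A : ValuationSubring (AlgebraicClosure ℚ)) (τ : GQ) (j : ℕ),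
      ℓ.Prime ∧ ℓ ∉ S ∧ A.LiesOverPrime ℓ ∧ A.IsFrobeniusAt τ ℓ ∧
        rhoE (toQ W) p g = rhoE (toQ W) p τ ^ j :=
  exists_frob_pow_tor frobeniusDensity x1 W hΔ S g

end Fermat.Agent.LP.Gal
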