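import Fermat.Agent.EL.X1
import Fermat.Agent.EL.X4
import Fermat.Agent.EL.X23
import Fermat.Agent.GR.I.CharTheoryMk
import Fermat.Agent.GR.D.Top.Main
import Fermat.Agent.GR.H.Final
import Fermat.Agent.LP.Gal.ECDefs

/-!
# LP-GAL : the inputs of the module, unconditionally

`X1`, `X3`, `X4` (module EL), a `KummerData N` with faithful Hecke action (GR-A, GR-B, GR-C),
`CruxAll N` (GR-D, GR-E), Frobenius' density theorem (GR-G).
-/

set_option autoImplicit false

namespace Fermat.Agent.LP.Gal

open Fermat.Agent.GR Fermat.Agent.GR.H Fermat.Agent.GR.I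

theorem x1 : X1 := fun W hΔ _ hn => Fermat.Agent.EL.card_torsionBy W hΔ hn

theorem x3 : X3 := fun W _ _ _ hℓ h5 hgood hn _ hA _ hσ x =>
  Fermat.Agent.EL.frobenius_smul_eq W hℓ h5 hgood hn hA hσ x

theorem x4 : X4 := fun E E' C h => Fermat.Agent.EL.exists_equivariant_addEquiv E E' C h

/-- the Kummer data of level `N`. -/
noncomputable def kummerData (N : ℕ) [NeZero N] : KummerData N :=
  (charTheory N).toKummerData (IsAlgClosed.lift (R := ℚ) (S := Qbar) (M := ℂ)).toRingHom

theorem kummerData_hecke_injective (N : ℕ) [NeZero N] :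
    Function.Injective (kummerData N).hecke := Fermat.Agent.GR.B.heckeLam_injective N

theorem cruxAll (N : ℕ) [NeZero N] : CruxAll N :=
  cruxAll_of_modelExists Fermat.Agent.GR.D.Top.modelExists N

end Fermat.Agent.LP.Gal
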