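import Fermat.Agent.GR.I.Level
import Fermat.Agent.LP.Gal.Defs

/-!
# LP-GAL : the Galois-Hecke module `M_p(N) = Λ / p Λ` (classes of Kummer functions)

`KM D p` is the range of `D.red p : Λ → X p` for `D : GR.I.KummerData N`; it is a `ZMod p`-vector
space with commuting actions of `G_ℚ` (`galHom`) and of the Hecke algebra (`heckeEnd`).
The link with functions: `D.theta p u ∈ KM D p` for every Kummer function `u`.
-/

set_option autoImplicit false
set_option linter.unusedSectionVars false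

namespace Fermat.Agent.LP.Gal

open Fermat.Agent.GR Fermat.Agent.GR.H Fermat.Agent.GR.I

variable {N : ℕ} [NeZero N] (D : KummerData N) (p : ℕ) [Fact p.Prime]

/-- `M_p(N)`. -/
def KM : Type := (D.red p).range

noncomputable instance : AddCommGroup (KM D p) := inferInstanceAs (AddCommGroup (D.red p).range)

/-- the class of a lattice element. -/
noncomputable def KM.mk : D.Λ →+ KM D p := (D.red p).rangeRestrict

theorem KM.mk_surjective : Function.Surjective (KM.mk D p) := (D.red p).rangeRestrict_surjective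

/-- the underlying element of `D.X p`. -/
def KM.val (y : KM D p) : D.X p := Subtype.val y

theorem KM.val_injective : Function.Injective (KM.val D p) := Subtype.val_injective

@[simp] theorem KM.val_mk (x : D.Λ) : KM.val D p (KM.mk D p x) = D.red p x := rfl

theorem KM.val_add (y z : KM D p) : KM.val D p (y + z) = KM.val D p y + KM.val D p z := rfl

@[simp] theorem KM.val_zero : KM.val D p 0 = 0 := rfl

theorem KM.mk_eq_zero_iff (x : D.Λ) : KM.mk D p x = 0 ↔ ∃ y, x = (p : ℤ) • y := by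
  rw [← D.red_eq_zero_iff p x]
  constructor
  · intro h
    have := congrArg (KM.val D p) h
    simpa using this
  · intro h
    exact KM.val_injective D p h

theorem KM.nsmul_eq_zero (y : KM D p) : p • y = 0 := by
  obtain ⟨x, rfl⟩ := KM.mk_surjective D p y
  rw [← map_nsmul, KM.mk_eq_zero_iff]
  exact ⟨x, (natCast_zsmul x p).symm⟩

noncomputable instance : Module (ZMod p) (KM D p) :=
  AddCommGroup.zmodModule (KM.nsmul_eq_zero D p)

/-- `x ↦ σ · [x]`. -/
noncomputable def KM.actHom (σ : GQ) : D.Λ →+ KM D p :=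
  AddMonoidHom.mk' (fun x => ⟨D.act p σ (D.red p x), by
      obtain ⟨y, hy⟩ := D.act_red (Fact.out : p.Prime).pos σ x
      exact ⟨y, hy⟩⟩)
    (fun x y => Subtype.ext (D.act_add (Fact.out : p.Prime).pos σ x y))

theorem KM.val_actHom (σ : GQ) (x : D.Λ) :
    KM.val D p (KM.actHom D p σ x) = D.act p σ (D.red p x) := rfl

theorem KM.ker_le_actHom (σ : GQ) : (KM.mk D p).ker ≤ (KM.actHom D p σ).ker := by
  intro x hx
  rw [AddMonoidHom.mem_ker] at hx ⊢
  have h1 : D.red p x = D.red p 0 := by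
    have := congrArg (KM.val D p) hx
    rw [map_zero]
    simpa using this
  apply KM.val_injective D p
  rw [KM.val_actHom, h1, ← KM.val_actHom, map_zero]

/-- the action of `σ` on `M_p(N)`, additive version. -/
noncomputable def KM.galAdd (σ : GQ) : KM D p →+ KM D p :=
  (KM.mk D p).liftOfSurjective (KM.mk_surjective D p) ⟨KM.actHom D p σ, KM.ker_le_actHom D p σ⟩

theorem KM.galAdd_mk (σ : GQ) (x : D.Λ) :
    KM.galAdd D p σ (KM.mk D p x) = KM.actHom D p σ x :=
  AddMonoidHom.liftOfRightInverse_comp_apply _ _ _ _ x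

theorem KM.val_galAdd (σ : GQ) (y : KM D p) :
    KM.val D p (KM.galAdd D p σ y) = D.act p σ (KM.val D p y) := by
  obtain ⟨x, rfl⟩ := KM.mk_surjective D p y
  rw [KM.galAdd_mk, KM.val_actHom, KM.val_mk]

/-- the action of `G_ℚ` on `M_p(N)`. -/
noncomputable def galHom : GQ →* Module.End (ZMod p) (KM D p) where
  toFun σ := (KM.galAdd D p σ).toZModLinearMap p
  map_one' := by
    refine LinearMap.ext fun y => ?_
    obtain ⟨x, rfl⟩ := KM.mk_surjective D p y
    apply KM.val_injective D p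
    show KM.val D p (KM.galAdd D p 1 _) = _
    rw [KM.val_galAdd, KM.val_mk, D.act_one (Fact.out : p.Prime).pos]
    rfl
  map_mul' σ τ := by
    refine LinearMap.ext fun y => ?_
    obtain ⟨x, rfl⟩ := KM.mk_surjective D p y
    apply KM.val_injective D p
    show KM.val D p (KM.galAdd D p (σ * τ) _) =
      KM.val D p (KM.galAdd D p σ (KM.galAdd D p τ _))
    rw [KM.val_galAdd, KM.val_galAdd, KM.val_galAdd, KM.val_mk,
      D.act_mul (Fact.out : p.Prime).pos]

theorem val_galHom (σ : GQ) (y : KM D p) :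
    KM.val D p (galHom D p σ y) = D.act p σ (KM.val D p y) := KM.val_galAdd D p σ y

theorem KM.ker_le_hecke (t : HeckeFull N) :
    (KM.mk D p).ker ≤ ((KM.mk D p).comp (D.hecke t).toAddMonoidHom).ker := by
  intro x hx
  rw [AddMonoidHom.mem_ker] at hx ⊢
  obtain ⟨y, rfl⟩ := (KM.mk_eq_zero_iff D p x).mp hx
  show KM.mk D p (D.hecke t ((p : ℤ) • y)) = 0
  rw [map_zsmul, KM.mk_eq_zero_iff]
  exact ⟨_, rfl⟩

/-- the action of a Hecke operator on `M_p(N)`, additive version. -/
noncomputable def KM.heckeAdd (t : HeckeFull N) : KM D p →+ KM D p :=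
  (KM.mk D p).liftOfSurjective (KM.mk_surjective D p)
    ⟨(KM.mk D p).comp (D.hecke t).toAddMonoidHom, KM.ker_le_hecke D p t⟩

theorem KM.heckeAdd_mk (t : HeckeFull N) (x : D.Λ) :
    KM.heckeAdd D p t (KM.mk D p x) = KM.mk D p (D.hecke t x) :=
  AddMonoidHom.liftOfRightInverse_comp_apply _ _ _ _ x

/-- the action of the Hecke algebra on `M_p(N)`. -/
noncomputable def heckeEnd : HeckeFull N →+* Module.End (ZMod p) (KM D p) where
  toFun t := (KM.heckeAdd D p t).toZModLinearMap p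
  map_one' := by
    refine LinearMap.ext fun y => ?_
    obtain ⟨x, rfl⟩ := KM.mk_surjective D p y
    show KM.heckeAdd D p 1 _ = _
    rw [KM.heckeAdd_mk, map_one]
    rfl
  map_mul' s t := by
    refine LinearMap.ext fun y => ?_
    obtain ⟨x, rfl⟩ := KM.mk_surjective D p y
    show KM.heckeAdd D p (s * t) _ = KM.heckeAdd D p s (KM.heckeAdd D p t _)
    rw [KM.heckeAdd_mk, KM.heckeAdd_mk, KM.heckeAdd_mk, map_mul]
    rfl
  map_zero' := by
    refine LinearMap.ext fun y => ?_
    obtain ⟨x, rfl⟩ := KM.mk_surjective D p y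
    show KM.heckeAdd D p 0 _ = _
    rw [KM.heckeAdd_mk, map_zero]
    simp
  map_add' s t := by
    refine LinearMap.ext fun y => ?_
    obtain ⟨x, rfl⟩ := KM.mk_surjective D p y
    show KM.heckeAdd D p (s + t) _ = KM.heckeAdd D p s _ + KM.heckeAdd D p t _
    rw [KM.heckeAdd_mk, KM.heckeAdd_mk, KM.heckeAdd_mk, map_add, LinearMap.add_apply, map_add]

theorem heckeEnd_mk (t : HeckeFull N) (x : D.Λ) :
    heckeEnd D p t (KM.mk D p x) = KM.mk D p (D.hecke t x) := KM.heckeAdd_mk D p t x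

/-- the class of a Kummer function. -/
noncomputable def KM.ofFun (u : LaurentSeries Qbar) (hu : IsKummer (N := N) p u) : KM D p :=
  ⟨D.theta p u, by
    obtain ⟨x, hx⟩ := D.theta_mem p (Fact.out : p.Prime).pos u hu
    exact ⟨x, hx⟩⟩

theorem KM.val_ofFun (u : LaurentSeries Qbar) (hu : IsKummer (N := N) p u) :
    KM.val D p (KM.ofFun D p u hu) = D.theta p u := rfl

/-- the common eigenspace `{T_ℓ = a ℓ : ℓ ∈ 𝓛, ℓ ∤ N}` in `M_p(N)`. -/
def eig (𝓛 : Set ℕ) (a : ℕ → ZMod p) : Submodule (ZMod p) (KM D p) where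
  carrier := {y | ∀ (ℓ : ℕ) (hℓ : ℓ.Prime) (hℓN : ¬ ℓ ∣ N), ℓ ∈ 𝓛 →
    heckeEnd D p (HeckeFull.T hℓ hℓN) y = a ℓ • y}
  add_mem' := by
    intro x y hx hy ℓ hℓ hℓN hL
    rw [map_add, hx ℓ hℓ hℓN hL, hy ℓ hℓ hℓN hL, smul_add]
  zero_mem' := by
    intro ℓ hℓ hℓN _
    rw [map_zero, smul_zero]
  smul_mem' := by
    intro c x hx ℓ hℓ hℓN hL
    rw [map_smul, hx ℓ hℓ hℓN hL, smul_comm]

theorem mem_eig {𝓛 : Set ℕ} {a : ℕ → ZMod p} {y : KM D p} :
    y ∈ eig D p 𝓛 a ↔ ∀ (ℓ : ℕ) (hℓ : ℓ.Prime) (hℓN : ¬ ℓ ∣ N), ℓ ∈ 𝓛 →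
      heckeEnd D p (HeckeFull.T hℓ hℓN) y = a ℓ • y := Iff.rfl

end Fermat.Agent.LP.Gal
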