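import Fermat.Agent.LP.Gal.KMod

/-!
# LP-GAL : dictionary between `M_p(N)` and Kummer functions

Everything is a translation of `GR/I/Level.lean` (`KummerData.act_theta`, `act_heckeT`,
`act_heckeU`, `act_level`, `act_frob`, `act_unram`) through `KM.val_injective`, `val_galHom`,
`heckeEnd_mk`, `KM.mk_surjective`.
-/

set_option autoImplicit false
set_option linter.unusedSectionVars false

namespace Fermat.Agent.LP.Gal

open Fermat.Agent.GR Fermat.Agent.GR.H Fermat.Agent.GR.I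

variable {N : ℕ} [NeZero N] (D : KummerData N) (p : ℕ) [Fact p.Prime]

theorem KM.ofFun_surjective (y : KM D p) :
    ∃ (u : LaurentSeries Qbar) (hu : IsKummer (N := N) p u), KM.ofFun D p u hu = y := by
  obtain ⟨x, rfl⟩ := KM.mk_surjective D p y
  obtain ⟨u, hu, hux⟩ := D.theta_surj p (Fact.out : p.Prime).pos x
  exact ⟨u, hu, KM.val_injective D p (by rw [KM.val_ofFun, KM.val_mk, hux])⟩

theorem KM.ofFun_mul (u v : LaurentSeries Qbar) (hu : IsKummer (N := N) p u)
    (hv : IsKummer (N := N) p v) :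
    KM.ofFun D p (u * v) (hu.mul hv) = KM.ofFun D p u hu + KM.ofFun D p v hv := by
  apply KM.val_injective D p
  rw [KM.val_add, KM.val_ofFun, KM.val_ofFun, KM.val_ofFun,
    D.theta_mul p (Fact.out : p.Prime).pos u v hu hv]

theorem KM.ofFun_eq_iff (u v : LaurentSeries Qbar) (hu : IsKummer (N := N) p u)
    (hv : IsKummer (N := N) p v) :
    KM.ofFun D p u hu = KM.ofFun D p v hv ↔ KummerEquiv N p u v := by
  rw [← (KM.val_injective D p).eq_iff, KM.val_ofFun, KM.val_ofFun]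
  exact D.theta_eq_iff p (Fact.out : p.Prime).pos u v hu hv

theorem KModFun_ofFun_one : KM.ofFun D p 1 kummer_isKummer_one = 0 := by
  have h := KM.ofFun_mul D p 1 1 kummer_isKummer_one kummer_isKummer_one
  have h2 : KM.ofFun D p (1 * 1) (kummer_isKummer_one.mul kummer_isKummer_one) =
      KM.ofFun D p 1 kummer_isKummer_one := by
    apply KM.val_injective D p
    rw [KM.val_ofFun, KM.val_ofFun, mul_one]
  rw [h2] at h
  exact left_eq_add.mp h

theorem KM.ofFun_eq_zero_iff (u : LaurentSeries Qbar) (hu : IsKummer (N := N) p u) :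
    KM.ofFun D p u hu = 0 ↔ KummerEquiv N p 1 u := by
  rw [← KModFun_ofFun_one D p, eq_comm]
  exact KM.ofFun_eq_iff D p 1 u kummer_isKummer_one hu

theorem KM.ofFun_pow (u : LaurentSeries Qbar) (hu : IsKummer (N := N) p u) (e : ℕ) :
    KM.ofFun D p (u ^ e) (hu.pow e) = (e : ZMod p) • KM.ofFun D p u hu := by
  rw [Nat.cast_smul_eq_nsmul]
  induction e with
  | zero =>
    rw [zero_nsmul, ← KModFun_ofFun_one D p]
    apply KM.val_injective D p
    rw [KM.val_ofFun, KM.val_ofFun, pow_zero]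
  | succ e ih =>
    rw [succ_nsmul, ← ih, ← KM.ofFun_mul]
    apply KM.val_injective D p
    rw [KM.val_ofFun, KM.val_ofFun, pow_succ]

theorem galHom_ofFun (σ : GQ) (u : LaurentSeries Qbar) (hu : IsKummer (N := N) p u) :
    galHom D p σ (KM.ofFun D p u hu) = KM.ofFun D p (gal σ u) (galStable p σ u hu) := by
  apply KM.val_injective D p
  rw [val_galHom, KM.val_ofFun, KM.val_ofFun, D.act_theta (Fact.out : p.Prime).pos σ hu]

theorem heckeEnd_T_ofFun {ℓ : ℕ} [NeZero ℓ] (hℓ : ℓ.Prime) (hℓN : ¬ ℓ ∣ N) (ζ : Qbarˣ)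
    (hζ : IsPrimitiveRoot ζ ℓ) (u : LaurentSeries Qbar) (hu : IsKummer (N := N) p u) :
    heckeEnd D p (HeckeFull.T hℓ hℓN) (KM.ofFun D p u hu) =
      KM.ofFun D p (heckeMulT ℓ ζ u) ((D.heckeStable p ℓ ζ hℓ hℓN hζ).2 u hu) := by
  obtain ⟨x, hx⟩ := D.theta_mem p (Fact.out : p.Prime).pos u hu
  have h1 : KM.ofFun D p u hu = KM.mk D p x :=
    KM.val_injective D p (by rw [KM.val_ofFun, KM.val_mk, hx])
  rw [h1, heckeEnd_mk]
  apply KM.val_injective D p
  rw [KM.val_mk, KM.val_ofFun]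
  exact (D.theta_heckeT p (Fact.out : p.Prime).pos ℓ hℓ hℓN ζ hζ u x hu hx.symm).symm

theorem heckeEnd_U_ofFun {q : ℕ} [NeZero q] (hq : q.Prime) (hqN : q ∣ N) (ζ : Qbarˣ)
    (hζ : IsPrimitiveRoot ζ q) (u : LaurentSeries Qbar) (hu : IsKummer (N := N) p u) :
    heckeEnd D p (CuspForm.heckeAlgebra.U hq hqN (Set.notMem_empty q)) (KM.ofFun D p u hu) =
      KM.ofFun D p (normT q ζ u) (D.normStable p q ζ hq hqN hζ u hu) := by
  obtain ⟨x, hx⟩ := D.theta_mem p (Fact.out : p.Prime).pos u hu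
  have h1 : KM.ofFun D p u hu = KM.mk D p x :=
    KM.val_injective D p (by rw [KM.val_ofFun, KM.val_mk, hx])
  rw [h1, heckeEnd_mk]
  apply KM.val_injective D p
  rw [KM.val_mk, KM.val_ofFun]
  exact (D.theta_heckeU p (Fact.out : p.Prime).pos q hq hqN ζ hζ u x hu hx.symm).symm

end Fermat.Agent.LP.Gal
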