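import Fermat.Agent.LP.Gal.KMod

/-!
# LP-GAL : `M_p(N)` as a Galois module (finite, level, Eichler-Shimura, unramified)

Everything is a translation of `GR/I/Level.lean` (`KummerData.act_theta`, `act_heckeT`,
`act_heckeU`, `act_level`, `act_frob`, `act_unram`) through `KM.val_injective`, `val_galHom`,
`heckeEnd_mk`, `KM.mk_surjective`.
-/

set_option autoImplicit false
set_option linter.unusedSectionVars false

namespace Fermat.Agent.LP.Gal

open Fermat.Agent.GR Fermat.Agent.GR.H Fermat.Agent.GR.I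

variable {N : ℕ} [NeZero N] (D : KummerData N) (p : ℕ) [Fact p.Prime]

/-- `KM.val` as an additive homomorphism. -/
noncomputable def KModGal_valHom : KM D p →+ D.X p := (D.red p).range.subtype

theorem KModGal_valHom_apply (y : KM D p) : KModGal_valHom D p y = KM.val D p y := rfl

theorem KModGal_exists_mk (σ : GQ) (x : D.Λ) :
    ∃ y : D.Λ, KM.mk D p y = galHom D p σ (KM.mk D p x) ∧
      D.red p y = D.act p σ (D.red p x) := by
  obtain ⟨y, hy⟩ := KM.mk_surjective D p (galHom D p σ (KM.mk D p x))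
  refine ⟨y, hy, ?_⟩
  have := congrArg (KM.val D p) hy
  rwa [KM.val_mk, val_galHom, KM.val_mk] at this

theorem KModGal_not_dvd {ℓ : ℕ} (hℓ : ℓ.Prime) (hℓN : ¬ ℓ ∣ N) (hℓp : ℓ ≠ p) : ¬ ℓ ∣ p * N := by
  intro h
  rcases (Nat.Prime.dvd_mul hℓ).1 h with h | h
  · exact hℓp ((Nat.prime_dvd_prime_iff_eq hℓ (Fact.out : p.Prime)).1 h)
  · exact hℓN h

/-- `Λ` is finitely generated and `KM` is killed by `p`. -/
theorem finite_KM : Finite (KM D p) := by
  have h1 : Module.Finite ℤ (KM D p) :=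
    Module.Finite.of_surjective (KM.mk D p).toIntLinearMap (KM.mk_surjective D p)
  refine Module.finite_of_fg_torsion (KM D p) ?_
  intro y
  refine ⟨⟨(p : ℤ), mem_nonZeroDivisors_of_ne_zero
    (by exact_mod_cast (Fact.out : p.Prime).ne_zero)⟩, ?_⟩
  show (p : ℤ) • y = 0
  rw [natCast_zsmul]
  exact KM.nsmul_eq_zero D p y

theorem galHom_comm_T (σ : GQ) {ℓ : ℕ} (hℓ : ℓ.Prime) (hℓN : ¬ ℓ ∣ N) :
    galHom D p σ * heckeEnd D p (HeckeFull.T hℓ hℓN) =
      heckeEnd D p (HeckeFull.T hℓ hℓN) * galHom D p σ := by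
  have hp : 0 < p := (Fact.out : p.Prime).pos
  refine LinearMap.ext fun z => ?_
  obtain ⟨x, rfl⟩ := KM.mk_surjective D p z
  obtain ⟨y, hy, hy'⟩ := KModGal_exists_mk D p σ x
  rw [Module.End.mul_apply, Module.End.mul_apply, heckeEnd_mk, ← hy, heckeEnd_mk]
  apply KM.val_injective D p
  rw [val_galHom, KM.val_mk, KM.val_mk]
  exact (D.act_heckeT hp hℓ hℓN σ x y hy').symm

theorem galHom_comm_U (σ : GQ) {q : ℕ} (hq : q.Prime) (hqN : q ∣ N) :
    galHom D p σ * heckeEnd D p (CuspForm.heckeAlgebra.U hq hqN (Set.notMem_empty q)) =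
      heckeEnd D p (CuspForm.heckeAlgebra.U hq hqN (Set.notMem_empty q)) * galHom D p σ := by
  have hp : 0 < p := (Fact.out : p.Prime).pos
  refine LinearMap.ext fun z => ?_
  obtain ⟨x, rfl⟩ := KM.mk_surjective D p z
  obtain ⟨y, hy, hy'⟩ := KModGal_exists_mk D p σ x
  rw [Module.End.mul_apply, Module.End.mul_apply, heckeEnd_mk, ← hy, heckeEnd_mk]
  apply KM.val_injective D p
  rw [val_galHom, KM.val_mk, KM.val_mk]
  exact (D.act_heckeU hp hq hqN σ x y hy').symm

theorem hasLevel_galHom : HasLevel (galHom D p) := by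
  have hp : 0 < p := (Fact.out : p.Prime).pos
  obtain ⟨L, hL, h⟩ := D.act_level hp
  refine ⟨L, hL, fun σ hσ => LinearMap.ext fun z => ?_⟩
  obtain ⟨x, rfl⟩ := KM.mk_surjective D p z
  apply KM.val_injective D p
  rw [val_galHom, KM.val_mk, h σ hσ x]
  rfl

/-- Eichler-Shimura on `M_p(N)`. -/
theorem galHom_frob (hcrux : CruxAll N) {ℓ : ℕ} (hℓ : ℓ.Prime) (hℓN : ¬ ℓ ∣ N) (hℓp : ℓ ≠ p)
    (A : ValuationSubring Qbar) (hA : A.LiesOverPrime ℓ) (τ : GQ) (hτ : A.IsFrobeniusAt τ ℓ) :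
    galHom D p τ * galHom D p τ - heckeEnd D p (HeckeFull.T hℓ hℓN) * galHom D p τ
      + (ℓ : ZMod p) • 1 = 0 := by
  have hp : 0 < p := (Fact.out : p.Prime).pos
  refine LinearMap.ext fun z => ?_
  obtain ⟨x, rfl⟩ := KM.mk_surjective D p z
  obtain ⟨y, hy, hy'⟩ := KModGal_exists_mk D p τ x
  rw [LinearMap.add_apply, LinearMap.sub_apply, Module.End.mul_apply, Module.End.mul_apply,
    LinearMap.smul_apply, Module.End.one_apply, LinearMap.zero_apply, ← hy, heckeEnd_mk,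
    Nat.cast_smul_eq_nsmul]
  apply KM.val_injective D p
  rw [← KModGal_valHom_apply, map_add, map_sub, map_nsmul, KModGal_valHom_apply,
    KModGal_valHom_apply, KModGal_valHom_apply, val_galHom, KM.val_mk, KM.val_mk, KM.val_mk,
    KM.val_zero, ← natCast_zsmul]
  exact D.act_frob hcrux hp hℓ hℓN (KModGal_not_dvd p hℓ hℓN hℓp) A hA τ hτ x y hy'

theorem galHom_unram (hcrux : CruxAll N) {q : ℕ} (hq : q.Prime) (hqN : ¬ q ∣ N) (hqp : q ≠ p)
    (A : ValuationSubring Qbar) (hA : A.LiesOverPrime q) (σ : GQ)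
    (hσ : σ ∈ A.inertiaSubgroupIn ℚ) : galHom D p σ = 1 := by
  have hp : 0 < p := (Fact.out : p.Prime).pos
  refine LinearMap.ext fun z => ?_
  obtain ⟨x, rfl⟩ := KM.mk_surjective D p z
  apply KM.val_injective D p
  rw [val_galHom, KM.val_mk, D.act_unram hcrux hp hq (KModGal_not_dvd p hq hqN hqp) A hA σ hσ x]
  rfl

end Fermat.Agent.LP.Gal
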