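import Fermat.Agent.LP.Gal.MainDefs
import Fermat.Agent.LP.Gal.ECRepA
import Fermat.Agent.LP.Gal.ECRepB
import Fermat.Agent.LP.Gal.Abstract
import Fermat.Agent.LP.Gal.EigenForm

/-!
# LP-GAL : `E[p]` embeds in `M_p(N)[λ]`
-/

set_option autoImplicit false

open WeierstrassCurve WeierstrassCurve.Affine WeierstrassCurve.Affine.Point

namespace Fermat.Agent.LP.Gal

open Fermat.Agent.GR Fermat.Agent.GR.H Fermat.Agent.GR.I

variable {p : ℕ} [Fact p.Prime] {N : ℕ} [NeZero N]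

/-- from `eig_ne_bot`. -/
theorem eigW_ne_bot (D : KummerData N) (hinj : Function.Injective D.hecke)
    (W : WeierstrassCurve ℤ) (hmod : W.IsResiduallyModularOfLevel p N) : eigW D W p ≠ ⊥ := by
  obtain ⟨f, 𝔪, hf, h𝔪, hp, hb⟩ := hmod
  exact eig_ne_bot D hinj p f hf 𝔪 h𝔪 hp (goodSet W p) (fun ℓ => W.apOfModel ℓ)
    (fun ℓ hℓ hℓN hL => hb ℓ hℓ hL.1 hℓN hL.2)

theorem Main_frobRel_mono {M : Type*} [AddCommGroup M] [Module (ZMod p) M] {S T : Finset ℕ}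
    (hST : S ⊆ T) {a : ℕ → ZMod p} {r : GQ →* Module.End (ZMod p) M} (h : FrobRel S a r) :
    FrobRel T a r :=
  fun ℓ hℓ hℓT => h ℓ hℓ (fun hS => hℓT (hST hS))

/-- the common set-up of the three theorems below. -/
theorem Main_setup (h3 : X3) (W : WeierstrassCurve ℤ) (hΔ : W.Δ ≠ 0)
    (D : KummerData N) (hcrux : CruxAll N) (U : Submodule (ZMod p) (KM D p))
    (hU : ∀ g, ∀ x ∈ U, galHom D p g x ∈ U) (hUe : U ≤ eigW D W p) :
    ∃ S : Finset ℕ, p ∈ S ∧ FrobRel S (apMod W p) (rhoE (toQ W) p) ∧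
      FrobRel S (apMod W p) (resRep (galHom D p) U hU) := by
  classical
  refine ⟨badSet W p ∪ N.primeFactors, Finset.mem_union_left _ (mem_badSet_self W p),
    Main_frobRel_mono Finset.subset_union_left (frobRel_rhoE h3 W hΔ), ?_⟩
  refine frobRel_resRep D p hcrux (goodSet W p) (apMod W p) _ (fun ℓ hℓ hℓS => ?_) U hU hUe
  rw [Finset.mem_union, not_or] at hℓS
  obtain ⟨-, h2, h3'⟩ := not_mem_badSet hΔ hℓ hℓS.1
  refine ⟨⟨h3', h2⟩, fun hdvd => hℓS.2 ?_, h2⟩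
  exact Nat.mem_primeFactors.2 ⟨hℓ, hdvd, NeZero.ne N⟩

theorem Main_finite_tor (h1 : X1) (W : WeierstrassCurve ℤ) (hΔ : W.Δ ≠ 0) :
    Finite (Tor (toQ W) p) := by
  apply Nat.finite_of_card_ne_zero
  rw [h1 W hΔ p (Fact.out : p.Prime).pos]
  exact pow_ne_zero _ (Fact.out : p.Prime).ne_zero

/-- **LP-GAL (module form).**  `U` is any nonzero Galois stable subspace of `M_p(N)[λ_W]`.
PROOF: `exists_embedding_of_frobRel` with `V = Tor (toQ W) p`, `X = U`, `r = resRep (galHom D p) U`,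
`S = badSet W p ∪ N.primeFactors`, `a = apMod W p`; `FrobRel` is monotone in `S`. -/
theorem exists_embedding_KM (dens : FrobeniusDensity) (h1 : X1) (h3 : X3) (hp2 : p ≠ 2)
    (W : WeierstrassCurve ℤ) (hΔ : W.Δ ≠ 0) (hirr : W.ModRepIsIrreducible p)
    (D : KummerData N) (hcrux : CruxAll N) (U : Submodule (ZMod p) (KM D p)) (hU0 : U ≠ ⊥)
    (hU : ∀ g, ∀ x ∈ U, galHom D p g x ∈ U) (hUe : U ≤ eigW D W p) :
    ∃ φ : Tor (toQ W) p →ₗ[ZMod p] KM D p, Function.Injective φ ∧ (∀ x, φ x ∈ U) ∧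
      ∀ (σ : GQ) (x : Tor (toQ W) p), φ (σ • x) = galHom D p σ (φ x) := by
  obtain ⟨S, hpS, hF, hF'⟩ := Main_setup h3 W hΔ D hcrux U hU hUe
  have : Module.Finite (ZMod p) (Tor (toQ W) p) := finite_tor h1 W hΔ
  have : Nontrivial U := (Submodule.nontrivial_iff_ne_bot).2 hU0
  obtain ⟨φ, hinj, heq⟩ := exists_embedding_of_frobRel dens hp2 (finrank_tor h1 W hΔ)
    (rhoE (toQ W) p) (resRep (galHom D p) U hU) (irr_rhoE (toQ W) hirr)
    (hasLevel_rhoE (toQ W) (Main_finite_tor h1 W hΔ)) ((hasLevel_galHom D p).resRep U hU)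
    S hpS (apMod W p) hF hF'
  refine ⟨U.subtype ∘ₗ φ, Subtype.val_injective.comp hinj, fun x => (φ x).2, fun σ x => ?_⟩
  exact congrArg Subtype.val (heq σ x)

/-- **LP-GAL (module form, with an involution `w` of `U`).** -/
theorem exists_embedding_KM_involution (dens : FrobeniusDensity) (h1 : X1) (h3 : X3) (hp2 : p ≠ 2)
    (W : WeierstrassCurve ℤ) (hΔ : W.Δ ≠ 0) (hirr : W.ModRepIsIrreducible p)
    (D : KummerData N) (hcrux : CruxAll N) (U : Submodule (ZMod p) (KM D p)) (hU0 : U ≠ ⊥)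
    (hU : ∀ g, ∀ x ∈ U, galHom D p g x ∈ U) (hUe : U ≤ eigW D W p)
    (w : Module.End (ZMod p) (KM D p)) (hwU : ∀ x ∈ U, w x ∈ U) (hww : ∀ x ∈ U, w (w x) = x)
    (hwg : ∀ g, ∀ x ∈ U, w (galHom D p g x) = galHom D p g (w x)) :
    ∃ (φ : Tor (toQ W) p →ₗ[ZMod p] KM D p) (s : ZMod p), (s = 1 ∨ s = -1) ∧
      Function.Injective φ ∧ (∀ x, φ x ∈ U) ∧
      (∀ (σ : GQ) (x : Tor (toQ W) p), φ (σ • x) = galHom D p σ (φ x)) ∧
      ∀ x, w (φ x) = s • φ x := by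
  obtain ⟨S, hpS, hF, hF'⟩ := Main_setup h3 W hΔ D hcrux U hU hUe
  have : Module.Finite (ZMod p) (Tor (toQ W) p) := finite_tor h1 W hΔ
  have : Nontrivial U := (Submodule.nontrivial_iff_ne_bot).2 hU0
  obtain ⟨φ, s, hs, hinj, heq, hw⟩ := exists_embedding_involution_of_frobRel dens hp2
    (finrank_tor h1 W hΔ)
    (rhoE (toQ W) p) (resRep (galHom D p) U hU) (irr_rhoE (toQ W) hirr)
    (hasLevel_rhoE (toQ W) (Main_finite_tor h1 W hΔ)) ((hasLevel_galHom D p).resRep U hU)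
    S hpS (apMod W p) hF hF' (w.restrict hwU)
    (LinearMap.ext fun x => Subtype.ext (hww x x.2))
    (fun g => LinearMap.ext fun x => Subtype.ext (hwg g x x.2))
  refine ⟨U.subtype ∘ₗ φ, s, hs, Subtype.val_injective.comp hinj, fun x => (φ x).2,
    fun σ x => ?_, fun x => ?_⟩
  · exact congrArg Subtype.val (heq σ x)
  · exact congrArg Subtype.val (hw x)

/-- every element of `U` is a sum of two values of equivariant maps `E[p] → U`. -/
theorem mem_images_KM (dens : FrobeniusDensity) (h1 : X1) (h3 : X3) (hp2 : p ≠ 2)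
    (W : WeierstrassCurve ℤ) (hΔ : W.Δ ≠ 0) (hirr : W.ModRepIsIrreducible p)
    (D : KummerData N) (hcrux : CruxAll N) (U : Submodule (ZMod p) (KM D p))
    (hU : ∀ g, ∀ x ∈ U, galHom D p g x ∈ U) (hUe : U ≤ eigW D W p) (y : KM D p) (hy : y ∈ U) :
    ∃ (φ₁ φ₂ : Tor (toQ W) p →ₗ[ZMod p] KM D p) (v₁ v₂ : Tor (toQ W) p),
      (∀ x, φ₁ x ∈ U) ∧ (∀ x, φ₂ x ∈ U) ∧
      (∀ (σ : GQ) x, φ₁ (σ • x) = galHom D p σ (φ₁ x)) ∧
      (∀ (σ : GQ) x, φ₂ (σ • x) = galHom D p σ (φ₂ x)) ∧ y = φ₁ v₁ + φ₂ v₂ := by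
  obtain ⟨S, hpS, hF, hF'⟩ := Main_setup h3 W hΔ D hcrux U hU hUe
  have : Module.Finite (ZMod p) (Tor (toQ W) p) := finite_tor h1 W hΔ
  obtain ⟨φ₁, φ₂, v₁, v₂, heq₁, heq₂, hy'⟩ := mem_span_images_of_frobRel dens hp2
    (finrank_tor h1 W hΔ)
    (rhoE (toQ W) p) (resRep (galHom D p) U hU) (irr_rhoE (toQ W) hirr)
    (hasLevel_rhoE (toQ W) (Main_finite_tor h1 W hΔ)) ((hasLevel_galHom D p).resRep U hU)
    S hpS (apMod W p) hF hF' (⟨y, hy⟩ : U)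
  refine ⟨U.subtype ∘ₗ φ₁, U.subtype ∘ₗ φ₂, v₁, v₂, fun x => (φ₁ x).2, fun x => (φ₂ x).2,
    fun σ x => ?_, fun σ x => ?_, ?_⟩
  · exact congrArg Subtype.val (heq₁ σ x)
  · exact congrArg Subtype.val (heq₂ σ x)
  · exact congrArg Subtype.val hy'

end Fermat.Agent.LP.Gal
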