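import Fermat.Agent.LP.Gal.KMod
import Fermat.Agent.LP.Gal.ECDefs

/-!
# LP-GAL : the eigenspace `M_p(N)[λ_W]`
-/

set_option autoImplicit false

namespace Fermat.Agent.LP.Gal

open Fermat.Agent.GR Fermat.Agent.GR.H Fermat.Agent.GR.I

variable {N : ℕ} [NeZero N]

/-- the primes at which the eigenvalues are prescribed. -/
def goodSet (W : WeierstrassCurve ℤ) (p : ℕ) : Set ℕ := {ℓ | W.IsGoodPrimeFor ℓ ∧ ℓ ≠ p}

/-- the eigenvalues. -/
noncomputable def apMod (W : WeierstrassCurve ℤ) (p : ℕ) : ℕ → ZMod p := fun ℓ => (W.apOfModel ℓ : ZMod p)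

/-- `M_p(N)[λ_W]`. -/
noncomputable abbrev eigW (D : KummerData N) (W : WeierstrassCurve ℤ) (p : ℕ) [Fact p.Prime] :
    Submodule (ZMod p) (KM D p) := eig D p (goodSet W p) (apMod W p)

end Fermat.Agent.LP.Gal
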