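import Fermat.Agent.LP.Gal.Main
import Fermat.Agent.LP.Gal.KModFun

/-!
# LP-GAL : `E[p]` embeds in `M_p(N)[λ]`, function form
-/

set_option autoImplicit false

open WeierstrassCurve WeierstrassCurve.Affine WeierstrassCurve.Affine.Point

namespace Fermat.Agent.LP.Gal

open Fermat.Agent.GR Fermat.Agent.GR.H Fermat.Agent.GR.I

variable {p : ℕ} [Fact p.Prime] {N : ℕ} [NeZero N]

/-- **LP-GAL (function form).**  From `exists_embedding_KM` with `U = eigW D W p`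
(`eigW_ne_bot`, `galHom_mem_eig`) and the dictionary of `KModProps.lean`
(`Φ x :=` a Kummer function of class `φ x`, `KM.ofFun_surjective`). -/
theorem exists_kummer_embedding (dens : FrobeniusDensity) (h1 : X1) (h3 : X3) (hp2 : p ≠ 2)
    (W : WeierstrassCurve ℤ) (hΔ : W.Δ ≠ 0) (hirr : W.ModRepIsIrreducible p)
    (D : KummerData N) (hinj : Function.Injective D.hecke) (hcrux : CruxAll N)
    (hmod : W.IsResiduallyModularOfLevel p N) :
    ∃ Φ : Tor (toQ W) p → LaurentSeries Qbar,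
      (∀ x, IsKummer (N := N) p (Φ x)) ∧
      (∀ x y, KummerEquiv N p (Φ (x + y)) (Φ x * Φ y)) ∧
      (∀ (σ : GQ) x, KummerEquiv N p (Φ (σ • x)) (gal σ (Φ x))) ∧
      (∀ x, KummerEquiv N p 1 (Φ x) → x = 0) ∧
      ∀ (ℓ : ℕ) [NeZero ℓ] (ζ : Qbarˣ), ℓ.Prime → ¬ ℓ ∣ N → W.IsGoodPrimeFor ℓ → ℓ ≠ p →
        IsPrimitiveRoot ζ ℓ → ∀ (e : ℕ), (e : ZMod p) = (W.apOfModel ℓ : ZMod p) →
          ∀ x, KummerEquiv N p (heckeMulT ℓ ζ (Φ x)) (Φ x ^ e) := by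
  obtain ⟨φ, hφinj, hφU, hφeq⟩ := exists_embedding_KM dens h1 h3 hp2 W hΔ hirr D hcrux
    (eigW D W p) (eigW_ne_bot D hinj W hmod) (fun g x hx => galHom_mem_eig D p _ _ g x hx) le_rfl
  choose u hu huφ using fun x => KM.ofFun_surjective D p (φ x)
  refine ⟨u, hu, fun x y => ?_, fun σ x => ?_, fun x hx => ?_, ?_⟩
  · refine (KM.ofFun_eq_iff D p _ _ (hu (x + y)) ((hu x).mul (hu y))).1 ?_
    rw [KM.ofFun_mul D p _ _ (hu x) (hu y), huφ, huφ, huφ, _root_.map_add]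
  · refine (KM.ofFun_eq_iff D p _ _ (hu (σ • x)) (galStable p σ _ (hu x))).1 ?_
    rw [← galHom_ofFun D p σ _ (hu x), huφ, huφ, hφeq]
  · have h0 := (KM.ofFun_eq_zero_iff D p _ (hu x)).2 hx
    rw [huφ] at h0
    exact hφinj (by rw [h0, _root_.map_zero])
  · intro ℓ _ ζ hℓ hℓN hgood hℓp hζ e he x
    refine (KM.ofFun_eq_iff D p _ _ ((D.heckeStable p ℓ ζ hℓ hℓN hζ).2 _ (hu x))
      ((hu x).pow e)).1 ?_
    rw [← heckeEnd_T_ofFun D p hℓ hℓN ζ hζ _ (hu x), KM.ofFun_pow D p _ (hu x) e, huφ, he]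
    exact (hφU x) ℓ hℓ hℓN ⟨hgood, hℓp⟩

end Fermat.Agent.LP.Gal
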