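import Fermat.Agent.LP.Iface
import Fermat.Agent.LP.Gal.Final
import Fermat.Agent.LP.New.Main

/-!
# LP-GAL : the outputs `TorAll`, `GalOut` of `LP/Iface.lean`
-/

set_option autoImplicit false
set_option synthInstance.maxHeartbeats 400000

open WeierstrassCurve WeierstrassCurve.Affine WeierstrassCurve.Affine.Point

namespace Fermat.Agent.LP.Gal

open Fermat.Agent.GR Fermat.Agent.GR.H Fermat.Agent.GR.I ModularCurve

/-- conjugate endomorphisms have the same determinant. -/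
theorem det_eq_of_equiv {k V V' : Type*} [Field k] [AddCommGroup V] [Module k V]
    [AddCommGroup V'] [Module k V'] (e : V ≃ₗ[k] V') (f : Module.End k V) (f' : Module.End k V')
    (h : ∀ x, e (f x) = f' (e x)) : LinearMap.det f = LinearMap.det f' := by
  have : f' = (e : V →ₗ[k] V') ∘ₗ f ∘ₗ (e.symm : V' →ₗ[k] V) := by
    refine LinearMap.ext fun y => ?_
    simp [h]
  rw [this, LinearMap.det_conj]

theorem torAll : TorAll := by
  intro p _ _ E hirr W hΔ hW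
  have hirr' := modRepIsIrreducible_of_model x4 E hirr W hW
  obtain ⟨C, hC⟩ := hW
  obtain ⟨e, he⟩ := exists_tor_equiv (p := p) x4 E (toQ W) C hC
  refine ⟨?_, ?_, ?_⟩
  · rw [Nat.card_congr e.toEquiv]
    exact x1 W hΔ p (Fact.out : p.Prime).pos
  · intro ζ hζ g k hg
    rw [← final_det_eq_cyclotomic W hΔ hirr' ζ hζ g k hg]
    exact det_eq_of_equiv e _ _ (fun x => he g x)
  · intro ℓ hℓ hℓS B σ hB hσ x
    obtain ⟨h5, hℓp, hgood⟩ := not_mem_badSet hΔ hℓ hℓS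
    have hn : ¬ ℓ ∣ p := fun hd =>
      hℓp ((Nat.prime_dvd_prime_iff_eq hℓ (Fact.out : p.Prime)).1 hd)
    have h := x3 W hΔ p ℓ hℓ h5 hgood hn B hB σ hσ (e x)
    apply e.injective
    rw [map_add, map_sub, map_zsmul, map_zsmul, he, he, h, _root_.map_zero]

/-- INPUT (LP-NEW, `Ops.lean`): the Atkin-Lehner involution `w_p` acts on `M_p(p M0)`, preserves the
eigenspaces of the `T_ℓ`, is an involution and commutes with Galois. -/
def WEndOut : Prop :=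
  ∀ (p : ℕ) [Fact p.Prime] (M0 : ℕ) [NeZero (p * M0)], 5 ≤ p → ¬ p ∣ M0 →
    ∀ (W : WeierstrassCurve ℤ) (w : FF Qbar (p * M0) ≃ₐ[Qbar] FF Qbar (p * M0)),
      GS.IsWQ Qbar p M0 w →
    ∃ wE : Module.End (ZMod p) (KM (kummerData (p * M0)) p),
      (∀ (y : FF Qbar (p * M0)) (hy : IsKummer (N := p * M0) p (y : LaurentSeries Qbar)),
        ∃ hy' : IsKummer (N := p * M0) p ((w y : FF Qbar (p * M0)) : LaurentSeries Qbar),
          wE (KM.ofFun (kummerData (p * M0)) p y hy) =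
            KM.ofFun (kummerData (p * M0)) p (w y : FF Qbar (p * M0)) hy') ∧
      (∀ x ∈ eigW (kummerData (p * M0)) W p, wE x ∈ eigW (kummerData (p * M0)) W p) ∧
      (∀ x ∈ eigW (kummerData (p * M0)) W p, wE (wE x) = x) ∧
      ∀ g, ∀ x ∈ eigW (kummerData (p * M0)) W p,
        wE (galHom (kummerData (p * M0)) p g x) = galHom (kummerData (p * M0)) p g (wE x)

theorem not_mem_exc {W : WeierstrassCurve ℤ} (hΔ : W.Δ ≠ 0) {p M0 ℓ : ℕ} (hM0 : M0 ≠ 0)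
    (hp : p.Prime) (hℓ : ℓ.Prime) (h : ℓ ∉ (exc W p M0 : Set ℕ)) :
    ¬ ℓ ∣ p * M0 ∧ W.IsGoodPrimeFor ℓ ∧ ℓ ≠ p := by
  have h' : ℓ ∉ badSet W p ∧ ℓ ∉ M0.primeFactors := by
    simpa [exc, not_or] using h
  obtain ⟨-, hℓp, hgood⟩ := not_mem_badSet hΔ hℓ h'.1
  refine ⟨fun hd => ?_, hgood, hℓp⟩
  rcases (Nat.Prime.dvd_mul hℓ).1 hd with hd | hd
  · exact hℓp ((Nat.prime_dvd_prime_iff_eq hℓ hp).1 hd)
  · exact h'.2 (Nat.mem_primeFactors.2 ⟨hℓ, hd, hM0⟩)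

theorem galOut_of (hw : WEndOut) : GalOut := by
  intro p _ M0 _ hp5 hpM E hirr W hΔ hW hmod w hwq
  have hp : p.Prime := Fact.out
  have hM0 : M0 ≠ 0 := by
    rintro rfl
    exact (NeZero.ne (p * 0)) (mul_zero p)
  set D := kummerData (p * M0) with hD
  obtain ⟨wE, hw1, hw2, hw3, hw4⟩ := hw p M0 hp5 hpM W w hwq
  obtain ⟨f, 𝔪, hf, h𝔪, hp𝔪, hcong⟩ := hmod
  obtain ⟨φ, s, hs, hφinj, hφU, hφeq, hφw⟩ := final_embedding_involution (N := p * M0) (p := p)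
    (by omega) E hirr W hΔ hW (eigW D W p) (final_eigW_ne_bot W f 𝔪 hf h𝔪 hp𝔪 hcong)
    (fun g x hx => galHom_mem_eig D p _ _ g x hx) le_rfl wE hw2 hw3 hw4
  choose u hu huφ using fun x => KM.ofFun_surjective D p (φ x)
  obtain ⟨s', hs', hss'⟩ : ∃ s' : ℕ, (s' = 1 ∨ s' = p - 1) ∧ (s' : ZMod p) = s := by
    rcases hs with rfl | rfl
    · exact ⟨1, Or.inl rfl, by simp⟩
    · refine ⟨p - 1, Or.inr rfl, ?_⟩
      rw [Nat.cast_sub hp.one_le]
      simp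
  refine ⟨u, s', ⟨hu, fun x y => ?_, fun σ x => ?_, fun x hx => ?_, ?_⟩, hs', ?_⟩
  · refine (KM.ofFun_eq_iff D p _ _ (hu (x + y)) ((hu x).mul (hu y))).1 ?_
    rw [KM.ofFun_mul D p _ _ (hu x) (hu y), huφ, huφ, huφ, _root_.map_add]
  · refine (KM.ofFun_eq_iff D p _ _ (hu (σ • x)) (galStable p σ _ (hu x))).1 ?_
    rw [← galHom_ofFun D p σ _ (hu x), huφ, huφ, hφeq]
  · have h0 := (KM.ofFun_eq_zero_iff D p _ (hu x)).2 hx
    rw [huφ] at h0
    exact hφinj (by rw [h0, _root_.map_zero])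
  · intro x ℓ _ ζ hℓ hℓS hζ e he
    obtain ⟨hℓN, hgood, hℓp⟩ := not_mem_exc hΔ hM0 hp hℓ hℓS
    refine (KM.ofFun_eq_iff D p _ _ ((D.heckeStable p ℓ ζ hℓ hℓN hζ).2 _ (hu x))
      ((hu x).pow e)).1 ?_
    rw [← heckeEnd_T_ofFun D p hℓ hℓN ζ hζ _ (hu x), KM.ofFun_pow D p _ (hu x) e, huφ, he]
    exact (hφU x) ℓ hℓ hℓN ⟨hgood, hℓp⟩
  · intro x y hy
    have hyK : IsKummer (N := p * M0) p (y : LaurentSeries Qbar) := hy ▸ hu x
    obtain ⟨hy', hwy⟩ := hw1 y hyK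
    have hyφ : KM.ofFun D p (y : LaurentSeries Qbar) hyK = φ x := by
      rw [← huφ x]
      exact (KM.ofFun_eq_iff D p _ _ hyK (hu x)).2 (hy ▸ KummerEquiv.refl _)
    refine (KM.ofFun_eq_iff D p _ _ (hyK.pow s') hy').1 ?_
    rw [KM.ofFun_pow D p _ hyK s', ← hwy, hyφ, hφw, hss']

theorem wEndOut : WEndOut := by
  intro p _ M0 _ _ hpM W w hw
  have : NeZero M0 := ⟨by
    rintro rfl
    exact (NeZero.ne (p * 0)) (mul_zero p)⟩
  refine ⟨New.wEnd (kummerData (p * M0)) w,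
    fun y hy => ⟨GS.FW.isKummer_algEquiv w y hy, New.wEnd_ofFun _ w y hy⟩,
    fun x hx => New.wEnd_mem_eig _ (cruxAll (p * M0)) hpM hw _ _ x hx,
    fun x _ => New.wEnd_wEnd _ hpM hw x, fun g x _ => New.wEnd_galHom _ hpM hw g x⟩

theorem galOut : GalOut := galOut_of wEndOut

end Fermat.Agent.LP.Gal
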